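/-
Programme T1B (row 38 via S44), cell TORIC50, brick NORM-MODEL part B (helper99), file 1: ABSTRACT layer,
`Mathlib` + helper46's `NormModel46.projective_of_fibres` only.

* `isDomain_isPrincipalIdealRing_quotient_localization` : `A/π` Dedekind, `π ∈ P` maximal  ⟹  `A_P/π A_P` is a domain
  and a principal ideal ring (it is the localization of `A/π` at `P/π`).
* `isTorsionFree_quotSMulTop_localizedModule` : the GLOBAL elementwise torsion-freeness of `M/πM` over `A/π`
  (`a • m ∈ π M ⟹ π ∣ a ∨ m ∈ π M`) gives the local hypothesis of `projective_of_fibres` at every `P ∋ π`.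
* **`projective_of_global`** : `A` noetherian domain, `A/π` Dedekind, `M` finite torsion-free, generic fibres principal,
  `M/πM` torsion-free over `A/π`  ⟹  `M` projective.
* `polynomial_prime_eq_of_le`, **`isPrincipalIdealRing_localization_of_polynomial`** : the generic-fibre hypothesis
  for a noetherian integrally closed domain `A` integral over `R[X]`, `R` a domain all of whose nonzero primes contain
  `ϖ` (a DVR with uniformiser `ϖ`): `A_P` is a principal ideal ring at every maximal `P ∌ ϖ`.
* **`projective_of_polynomial`** : the two combined (the form instantiated on the charts of `ES/N34`).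
-/
import Mathlib
import Fermat.Agent.T1B.NormModel46.Abstract

set_option autoImplicit false
set_option linter.unusedSectionVars false

open IsLocalRing Polynomial

namespace Fermat.Agent.T1B.NormModel99

section SpecialFibre

variable {A : Type*} [CommRing A] [IsNoetherianRing A] (π : A)
  [IsDedekindDomain (A ⧸ Ideal.span {π})] (P : Ideal A) [P.IsMaximal]

/-- The quotient `A_P / π A_P` as a localization of the Dedekind domain `A / π`: it is a domain and
a principal ideal ring. -/
theorem isDomain_isPrincipalIdealRing_quotient_localization (hπP : π ∈ P) :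
    IsDomain (Localization.AtPrime P ⧸ Ideal.span {algebraMap A (Localization.AtPrime P) π}) ∧
    IsPrincipalIdealRing
      (Localization.AtPrime P ⧸ Ideal.span {algebraMap A (Localization.AtPrime P) π}) := by
  set S := Localization.AtPrime P with hS
  set I : Ideal A := Ideal.span {π} with hI
  have hJ : I.map (algebraMap A S) = Ideal.span {algebraMap A S π} := by
    rw [hI, Ideal.map_span, Set.image_singleton]
  rw [← hJ]
  have hloc : IsLocalization (Algebra.algebraMapSubmonoid (A ⧸ I) P.primeCompl)
      (S ⧸ I.map (algebraMap A S)) := inferInstance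
  have hIP : I ≤ P := by
    rw [hI, Ideal.span_le, Set.singleton_subset_iff]; exact hπP
  have hle : Algebra.algebraMapSubmonoid (A ⧸ I) P.primeCompl ≤ nonZeroDivisors (A ⧸ I) := by
    rintro _ ⟨s, hs, rfl⟩
    apply mem_nonZeroDivisors_of_ne_zero
    intro h0
    have : s ∈ I := Ideal.Quotient.eq_zero_iff_mem.mp h0
    exact hs (hIP this)
  have hdom : IsDomain (S ⧸ I.map (algebraMap A S)) :=
    IsLocalization.isDomain_of_le_nonZeroDivisors (S ⧸ I.map (algebraMap A S)) hle
  have hded : IsDedekindDomain (S ⧸ I.map (algebraMap A S)) :=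
    IsLocalization.isDedekindDomain (A ⧸ I) hle _
  have hlocal : IsLocalRing (S ⧸ I.map (algebraMap A S)) :=
    .of_surjective' _ Ideal.Quotient.mk_surjective
  refine ⟨hdom, ?_⟩
  exact ((tfae_of_isNoetherianRing_of_isLocalRing_of_isDomain
    (R := S ⧸ I.map (algebraMap A S))).out 2 0).mp hded

end SpecialFibre

section TorsionFree

variable {A : Type*} [CommRing A] [IsDomain A]
  {M : Type*} [AddCommGroup M] [Module A M] (π : A) (P : Ideal A) [P.IsMaximal]

/-- `M_P / π M_P` is torsion-free over `A_P / π A_P` as soon as `M / π M` is torsion-free over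
`A / π` (elementwise form), `(π)` being a prime ideal contained in `P`. -/
theorem isTorsionFree_quotSMulTop_localizedModule (hπP : π ∈ P) (hprime : (Ideal.span {π}).IsPrime)
    [Nontrivial (Localization.AtPrime P ⧸ Ideal.span {algebraMap A (Localization.AtPrime P) π})]
    (htf : ∀ (a : A) (m m' : M), a • m = π • m' → π ∣ a ∨ ∃ m'' : M, m = π • m'') :
    Module.IsTorsionFree
      (Localization.AtPrime P ⧸ Ideal.span {algebraMap A (Localization.AtPrime P) π})
      (QuotSMulTop (algebraMap A (Localization.AtPrime P) π)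
        (LocalizedModule P.primeCompl M)) := by
  set S := Localization.AtPrime P with hS
  have hIP : Ideal.span {π} ≤ P := by
    rw [Ideal.span_le, Set.singleton_subset_iff]; exact hπP
  refine Module.IsTorsionFree.of_smul_eq_zero fun r x hrx => ?_
  obtain ⟨r, rfl⟩ := Ideal.Quotient.mk_surjective r
  obtain ⟨x, rfl⟩ := Submodule.Quotient.mk_surjective _ x
  obtain ⟨a, s, rfl⟩ := IsLocalization.exists_mk'_eq P.primeCompl r
  induction x using LocalizedModule.induction_on with
  | h m t =>
  have h1 : (Submodule.Quotient.mk (IsLocalization.mk' S a s • LocalizedModule.mk m t) :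
      QuotSMulTop (algebraMap A S π) (LocalizedModule P.primeCompl M)) = 0 := hrx
  rw [Submodule.Quotient.mk_eq_zero, Submodule.mem_smul_pointwise_iff_exists] at h1
  obtain ⟨z, -, hz⟩ := h1
  induction z using LocalizedModule.induction_on with
  | h m₂ t₂ =>
  rw [← Localization.mk_eq_mk', LocalizedModule.mk_smul_mk, algebraMap_smul,
    LocalizedModule.smul'_mk, LocalizedModule.mk_eq] at hz
  obtain ⟨u, hu⟩ := hz
  have hkey : (↑u * ↑t₂ * a : A) • m = π • ((↑u * ↑s * ↑t : A) • m₂) := by
    have := hu
    simp only [Submonoid.smul_def, smul_smul, Submonoid.coe_mul] at this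
    rw [smul_smul, mul_assoc, ← this]
    congr 1
    ring
  have hu' : (u : A) ∉ P := u.2
  have ht₂ : (t₂ : A) ∉ P := t₂.2
  rcases htf _ _ _ hkey with hdiv | ⟨m₀, hm₀⟩
  · left
    have h2 : π ∣ a := by
      have h3 : (↑u * ↑t₂ * a : A) ∈ Ideal.span {π} := Ideal.mem_span_singleton.mpr hdiv
      rcases hprime.mem_or_mem h3 with h4 | h4
      · rcases hprime.mem_or_mem h4 with h5 | h5
        · exact absurd (hIP h5) hu'
        · exact absurd (hIP h5) ht₂
      · exact Ideal.mem_span_singleton.mp h4
    obtain ⟨a', rfl⟩ := h2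
    rw [Ideal.Quotient.eq_zero_iff_mem, Ideal.mem_span_singleton]
    refine ⟨IsLocalization.mk' S a' s, ?_⟩
    rw [← IsLocalization.mk'_one (M := P.primeCompl) S π, ← IsLocalization.mk'_mul, one_mul]
  · right
    rw [Submodule.Quotient.mk_eq_zero, Submodule.mem_smul_pointwise_iff_exists]
    refine ⟨LocalizedModule.mk m₀ t, Submodule.mem_top, ?_⟩
    rw [algebraMap_smul, LocalizedModule.smul'_mk, hm₀]

end TorsionFree

section Generic

attribute [local instance] Polynomial.algebra in
/-- In `R[X]`, `R` a domain all of whose nonzero primes contain `ϖ` (e.g. a DVR with uniformiser `ϖ`):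
two comparable nonzero primes avoiding `ϖ` coincide (`R[X][1/ϖ] = K[X]` has dimension one). -/
theorem polynomial_prime_eq_of_le {R : Type*} [CommRing R] [IsDomain R] {ϖ : R}
    (hR : ∀ p : Ideal R, p.IsPrime → p ≠ ⊥ → ϖ ∈ p)
    {q p : Ideal R[X]} (hq : q.IsPrime) (hp : p.IsPrime) (hqp : q ≤ p) (hq0 : q ≠ ⊥)
    (hϖ : C ϖ ∉ p) : q = p := by
  let K := FractionRing R
  have hloc : IsLocalization ((nonZeroDivisors R).map (C : R →+* R[X])) K[X] :=
    Polynomial.isLocalization _ K
  have hdisj : ∀ I : Ideal R[X], I.IsPrime → C ϖ ∉ I →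
      Disjoint (((nonZeroDivisors R).map (C : R →+* R[X]) : Submonoid R[X]) : Set R[X]) I := by
    intro I hI hϖI
    rw [Set.disjoint_left]
    rintro _ ⟨r, hr, rfl⟩ hrI
    have hr0 : r ≠ 0 := nonZeroDivisors.ne_zero hr
    have hprime : (I.comap (C : R →+* R[X])).IsPrime := Ideal.comap_isPrime _ _
    have hne : I.comap (C : R →+* R[X]) ≠ ⊥ := by
      intro h
      have : r ∈ I.comap (C : R →+* R[X]) := hrI
      rw [h] at this
      exact hr0 this
    exact hϖI (hR _ hprime hne)
  have hdp := hdisj p hp hϖ
  have hdq := hdisj q hq (fun h => hϖ (hqp h))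
  have hq' : (q.map (algebraMap R[X] K[X])).IsPrime :=
    IsLocalization.isPrime_of_isPrime_disjoint _ _ q hq hdq
  have hp' : (p.map (algebraMap R[X] K[X])).IsPrime :=
    IsLocalization.isPrime_of_isPrime_disjoint _ _ p hp hdp
  have hinj : Function.Injective (algebraMap R[X] K[X]) :=
    Polynomial.map_injective _ (IsFractionRing.injective R K)
  have hq0' : q.map (algebraMap R[X] K[X]) ≠ ⊥ := by
    rw [Ne, Ideal.map_eq_bot_iff_of_injective hinj]; exact hq0
  have hmax : (q.map (algebraMap R[X] K[X])).IsMaximal := hq'.isMaximal hq0'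
  have heq : q.map (algebraMap R[X] K[X]) = p.map (algebraMap R[X] K[X]) :=
    hmax.eq_of_le hp'.ne_top (Ideal.map_mono hqp)
  rw [← IsLocalization.under_map_of_isPrime_disjoint _ K[X] hq hdq,
    ← IsLocalization.under_map_of_isPrime_disjoint _ K[X] hp hdp, heq]

/-- **Generic fibre.** `A` a noetherian integrally closed domain, integral over `R[X]`; at a maximal
ideal `P` not containing `ϖ` the local ring `A_P` is a principal ideal ring (a DVR or a field). -/
theorem isPrincipalIdealRing_localization_of_polynomial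
    {R : Type*} [CommRing R] [IsDomain R] {ϖ : R}
    (hR : ∀ p : Ideal R, p.IsPrime → p ≠ ⊥ → ϖ ∈ p)
    {A : Type*} [CommRing A] [IsDomain A] [IsNoetherianRing A] [IsIntegrallyClosed A]
    [Algebra R[X] A] [Algebra.IsIntegral R[X] A]
    (P : Ideal A) [P.IsMaximal] (hP : algebraMap R[X] A (C ϖ) ∉ P) :
    IsPrincipalIdealRing (Localization.AtPrime P) := by
  set S := Localization.AtPrime P with hS
  have hic : IsIntegrallyClosed S :=
    isIntegrallyClosed_of_isLocalization S P.primeCompl P.primeCompl_le_nonZeroDivisors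
  have h30 : (IsIntegrallyClosed S ∧ ∀ Q : Ideal S, Q ≠ ⊥ → Q.IsPrime → Q = maximalIdeal S) ↔
      IsPrincipalIdealRing S :=
    (tfae_of_isNoetherianRing_of_isLocalRing_of_isDomain (R := S)).out 3 0
  refine h30.mp ⟨hic, fun Q hQ0 hQ => ?_⟩
  set Q' := Q.under A with hQ'
  have hQ'prime : Q'.IsPrime := Ideal.comap_isPrime _ _
  have hQ'le : Q' ≤ P := by
    have h1 : Q ≤ maximalIdeal S := le_maximalIdeal hQ.ne_top
    have h2 : Q.under A ≤ (maximalIdeal S).under A := Ideal.comap_mono h1
    rwa [IsLocalization.AtPrime.under_maximalIdeal S P] at h2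
  have hQ'0 : Q' ≠ ⊥ := by
    intro h
    apply hQ0
    rw [← IsLocalization.map_under P.primeCompl S Q, ← hQ', h, Ideal.map_bot]
  have hq0 : Q'.comap (algebraMap R[X] A) ≠ ⊥ := fun h => hQ'0 (Ideal.eq_bot_of_comap_eq_bot h)
  have hqp : Q'.comap (algebraMap R[X] A) ≤ P.comap (algebraMap R[X] A) := Ideal.comap_mono hQ'le
  have heq : Q'.comap (algebraMap R[X] A) = P.comap (algebraMap R[X] A) :=
    polynomial_prime_eq_of_le hR (Ideal.comap_isPrime _ _) (Ideal.comap_isPrime _ _) hqp hq0 hP
  have hQP : Q' = P := by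
    by_contra hne
    have hlt : Q' < P := lt_of_le_of_ne hQ'le hne
    obtain ⟨x, hxP, hxQ⟩ := SetLike.exists_of_lt hlt
    have := Ideal.comap_lt_comap_of_integral_mem_sdiff hQ'le ⟨hxP, hxQ⟩
      (Algebra.IsIntegral.isIntegral (R := R[X]) x)
    exact absurd heq (ne_of_lt this)
  rw [← IsLocalization.map_under P.primeCompl S Q, ← hQ', hQP,
    Localization.AtPrime.map_eq_maximalIdeal]

end Generic

section Global

variable {A : Type*} [CommRing A] [IsDomain A] [IsNoetherianRing A]
  {M : Type*} [AddCommGroup M] [Module A M] [Module.Finite A M] [Module.IsTorsionFree A M]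

/-- **Miracle flatness in dimension 2, global form.** -/
theorem projective_of_global {π : A} (hπ0 : π ≠ 0) [IsDedekindDomain (A ⧸ Ideal.span {π})]
    (hgen : ∀ (P : Ideal A) [P.IsMaximal], π ∉ P →
      IsPrincipalIdealRing (Localization.AtPrime P))
    (htf : ∀ (a : A) (m m' : M), a • m = π • m' → π ∣ a ∨ ∃ m'' : M, m = π • m'') :
    Module.Projective A M := by
  refine Fermat.Agent.T1B.NormModel46.projective_of_fibres hπ0 hgen fun P hP hπP => ?_
  obtain ⟨hdom, hpir⟩ := isDomain_isPrincipalIdealRing_quotient_localization π P hπP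
  have hprime : (Ideal.span {π}).IsPrime :=
    (Ideal.Quotient.isDomain_iff_prime _).mp inferInstance
  exact ⟨hdom, hpir, isTorsionFree_quotSMulTop_localizedModule π P hπP hprime htf⟩

/-- **The form used on the charts**: `A` a noetherian integrally closed domain, integral over `R[X]`
(`R` a domain all of whose nonzero primes contain `ϖ`), `A / ϖ` Dedekind, `M` a finite torsion-free
`A`-module with `M / ϖ M` torsion-free over `A / ϖ`  ⟹  `M` is projective. -/
theorem projective_of_polynomial {R : Type*} [CommRing R] [IsDomain R] {ϖ : R}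
    (hR : ∀ p : Ideal R, p.IsPrime → p ≠ ⊥ → ϖ ∈ p)
    [IsIntegrallyClosed A] [Algebra R[X] A] [Algebra.IsIntegral R[X] A]
    (hπ0 : algebraMap R[X] A (C ϖ) ≠ 0)
    [IsDedekindDomain (A ⧸ Ideal.span {algebraMap R[X] A (C ϖ)})]
    (htf : ∀ (a : A) (m m' : M), a • m = algebraMap R[X] A (C ϖ) • m' →
      algebraMap R[X] A (C ϖ) ∣ a ∨ ∃ m'' : M, m = algebraMap R[X] A (C ϖ) • m'') :
    Module.Projective A M :=
  projective_of_global hπ0
    (fun P _ hP => isPrincipalIdealRing_localization_of_polynomial hR P hP) htf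

end Global

end Fermat.Agent.T1B.NormModel99
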