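/-
Programme T1B (row 38 via S44), cell TORIC50, brick NORM-MODEL part B (helper99), file 2: the CHART form of
`Abstract.projective_of_global`, still `Mathlib`-only, in the vocabulary of `ES/N35/CompData16.CompData` and
`ES/N34/NodalCore13.NodalTwoChartModel` (all inputs are elementary hypotheses with the literal shapes of the
fields `hφB`, `hker`, `fin0`, `le_O1_0`, `unif1`, `sat0` … of those bundles).

Data: `R` a domain all of whose nonzero primes contain `π` (a DVR with uniformiser `π`); `A` (= the smooth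
level-`M'` chart `B'_j`) a noetherian integrally closed `R`-domain, integral over `R[s]`, with `A / π` Dedekind;
`φ : A →ₐ[R] F` injective (= `alpha` or `beta` on the chart) with values in the subalgebra `B ⊂ F` (= the nodal
chart `B_j`), `B` finitely generated over `φ(A)`; `O1, O2` the two Gauss valuation rings: `B ⊂ O1 ⊓ O2`,
`π` generates their maximal ideals, `B` is `π`-saturated in `O1 ⊓ O2`, and BOTH kernels
`φ⁻¹(π O_j) = π A` (`φ` is dominant on both components of the special fibre).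

* `chartAlgebra φ B hφB : Algebra A ↥B` (NOT an instance: `letI`/`attribute [local instance]` it);
* `finite_of_integral_generator` : `B` finite over `R[t]` (shape of `fin0`), `t` integral over `A` ⟹ `B` finite over `A`;
* `isIntegral_chartAlgebra` : `t` integral over `R[φ s]` ⟹ `t` integral over `A`;
* **`projective_of_chart_data`** : `B` finite over `A` ⟹ `B` is a projective `A`-module.
-/
import Mathlib
import Fermat.Agent.T1B.NormModel99.Abstract

set_option autoImplicit false
set_option linter.unusedSectionVars false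
set_option linter.style.haveILetI false

open Polynomial

namespace Fermat.Agent.T1B.NormModel99

section Chart

variable {R : Type*} [CommRing R] {F : Type*} [Field F] [Algebra R F]
  {A : Type*} [CommRing A] [Algebra R A]

/-- The `A`-algebra structure on the chart `B ⊂ F` through `φ : A →ₐ[R] F` with values in `B`. -/
@[reducible] def chartAlgebra (φ : A →ₐ[R] F) (B : Subalgebra R F) (hφB : ∀ a, φ a ∈ B) :
    Algebra A ↥B :=
  (φ.codRestrict B hφB).toRingHom.toAlgebra

theorem chartAlgebra_algebraMap_coe (φ : A →ₐ[R] F) (B : Subalgebra R F) (hφB : ∀ a, φ a ∈ B)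
    (a : A) :
    ((@algebraMap A ↥B _ _ (chartAlgebra φ B hφB) a : ↥B) : F) = φ a := rfl

theorem chartAlgebra_smul_coe (φ : A →ₐ[R] F) (B : Subalgebra R F) (hφB : ∀ a, φ a ∈ B)
    (a : A) (b : ↥B) :
    letI := chartAlgebra φ B hφB
    ((a • b : ↥B) : F) = φ a * (b : F) := rfl

/-- `B` is a finite `A`-module through `φ` (wrapper: instance search at the concrete number-field types is
slow; unfold with `id` / `show`). -/
def ChartFinite (φ : A →ₐ[R] F) (B : Subalgebra R F) (hφB : ∀ a, φ a ∈ B) : Prop :=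
  letI := chartAlgebra φ B hφB
  Module.Finite A ↥B

/-- `B` is a projective `A`-module through `φ`. -/
def ChartProjective (φ : A →ₐ[R] F) (B : Subalgebra R F) (hφB : ∀ a, φ a ∈ B) : Prop :=
  letI := chartAlgebra φ B hφB
  Module.Projective A ↥B

/-- `t ∈ B` is integral over `A` through `φ`. -/
def ChartIntegral (φ : A →ₐ[R] F) (B : Subalgebra R F) (hφB : ∀ a, φ a ∈ B) (t : ↥B) : Prop :=
  letI := chartAlgebra φ B hφB
  IsIntegral A t

theorem mem_adjoin_singleton_iff_aeval {x p : F} :
    p ∈ Algebra.adjoin R {x} ↔ ∃ P : R[X], aeval x P = p := by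
  rw [Algebra.adjoin_singleton_eq_range_aeval]
  rfl

/-- Integrality over `R[u] ⊂ F` in the polynomial form (`R[X] → F`, `X ↦ u`). -/
theorem isIntegralElem_aeval_of_isIntegral_adjoin {u w : F}
    (h : IsIntegral (Algebra.adjoin R {u}) w) :
    (aeval (R := R) u).toRingHom.IsIntegralElem w := by
  obtain ⟨P, hP, hw⟩ := h
  let g : R[X] →ₐ[R] Algebra.adjoin R {u} :=
    (aeval u).codRestrict _ (fun p => by
      rw [Algebra.adjoin_singleton_eq_range_aeval]; exact ⟨p, rfl⟩)
  have hg : Function.Surjective g := by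
    rintro ⟨x, hx⟩
    rw [Algebra.adjoin_singleton_eq_range_aeval] at hx
    obtain ⟨p, rfl⟩ := hx
    exact ⟨p, rfl⟩
  have hl : P ∈ lifts g.toRingHom := by
    rw [lifts_iff_coeff_lifts]
    intro n
    exact hg _
  obtain ⟨Q, hQ, -, hQm⟩ := lifts_and_natDegree_eq_and_monic hl hP
  refine ⟨Q, hQm, ?_⟩
  rw [← hw, ← hQ, eval₂_map]
  rfl

/-- The converse. -/
theorem isIntegral_adjoin_of_isIntegralElem_aeval {u w : F}
    (h : (aeval (R := R) u).toRingHom.IsIntegralElem w) :
    IsIntegral (Algebra.adjoin R {u}) w := by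
  obtain ⟨Q, hQm, hQ⟩ := h
  let g : R[X] →ₐ[R] Algebra.adjoin R {u} :=
    (aeval u).codRestrict _ (fun p => by
      rw [Algebra.adjoin_singleton_eq_range_aeval]; exact ⟨p, rfl⟩)
  refine ⟨Q.map g.toRingHom, hQm.map _, ?_⟩
  rw [eval₂_map, ← hQ]
  rfl

/-- `t ∈ B` integral over `R[φ s]` is integral over `A` (through `φ`). -/
theorem isIntegral_chartAlgebra (φ : A →ₐ[R] F) (B : Subalgebra R F) (hφB : ∀ a, φ a ∈ B)
    (s : A) {t : F} (htB : t ∈ B) (h : IsIntegral (Algebra.adjoin R {φ s}) t) :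
    ChartIntegral φ B hφB ⟨t, htB⟩ := by
  letI := chartAlgebra φ B hφB
  show IsIntegral A (⟨t, htB⟩ : ↥B)
  obtain ⟨Q, hQm, hQ⟩ := isIntegralElem_aeval_of_isIntegral_adjoin h
  refine ⟨Q.map (aeval (R := R) s).toRingHom, hQm.map _, ?_⟩
  apply Subtype.ext
  show B.val (eval₂ (algebraMap A ↥B) (⟨t, htB⟩ : ↥B) (Q.map (aeval (R := R) s).toRingHom)) = 0
  rw [eval₂_map]
  have h1 : B.val (eval₂ ((algebraMap A ↥B).comp (aeval (R := R) s).toRingHom) (⟨t, htB⟩ : ↥B) Q) =
      eval₂ ((B.val : ↥B →+* F).comp ((algebraMap A ↥B).comp (aeval (R := R) s).toRingHom)) t Q :=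
    hom_eval₂ Q _ (B.val : ↥B →+* F) _
  rw [h1, ← hQ]
  congr 1
  apply Polynomial.ringHom_ext
  · intro r
    show φ (aeval s (C r)) = aeval (φ s) (C r)
    rw [aeval_C, aeval_C, φ.commutes]
  · show φ (aeval s X) = aeval (φ s) X
    rw [aeval_X, aeval_X]

/-- **Finiteness from an integral generator**: `B` is generated as a module over `R[t]` by finitely many
elements (shape of `NodalTwoChartModel.fin0` / `ChartGeneric22.chart_facts`) and `t ∈ B` is integral over
`A` (through `φ`)  ⟹  `B` is a finite `A`-module. -/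
theorem finite_of_integral_generator (φ : A →ₐ[R] F) (B : Subalgebra R F) (hφB : ∀ a, φ a ∈ B)
    (t : F) (htB : t ∈ B)
    (hint : ChartIntegral φ B hφB ⟨t, htB⟩)
    (hfin : ∃ (r : ℕ) (e : Fin r → F), (∀ i, e i ∈ B) ∧
      ∀ x ∈ B, ∃ P : Fin r → R[X], x = ∑ i, aeval t (P i) * e i) :
    ChartFinite φ B hφB := by
  letI := chartAlgebra φ B hφB
  show Module.Finite A ↥B
  have hint' : IsIntegral A (⟨t, htB⟩ : ↥B) := hint
  set t' : ↥B := ⟨t, htB⟩ with ht'
  let S : Subalgebra A ↥B := Algebra.adjoin A {t'}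
  have hS : Module.Finite A ↥S := Module.Finite.iff_fg.mpr (IsIntegral.fg_adjoin_singleton hint')
  have hRS : ∀ r : R, algebraMap R ↥B r ∈ S := by
    intro r
    have : algebraMap R ↥B r = algebraMap A ↥B (algebraMap R A r) :=
      Subtype.ext (φ.commutes r).symm
    rw [this]
    exact S.algebraMap_mem _
  have haevalS : ∀ P : R[X], aeval t' P ∈ S := by
    intro P
    rw [aeval_eq_sum_range]
    refine S.sum_mem fun i _ => ?_
    rw [Algebra.smul_def]
    exact S.mul_mem (hRS _) (S.pow_mem (Algebra.self_mem_adjoin_singleton A t') i)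
  obtain ⟨r, e, he, hgen⟩ := hfin
  let e' : Fin r → ↥B := fun i => ⟨e i, he i⟩
  have hSB : Module.Finite ↥S ↥B := by
    refine Module.Finite.of_surjective (Fintype.linearCombination ↥S e') ?_
    rintro ⟨x, hx⟩
    obtain ⟨P, hP⟩ := hgen x hx
    refine ⟨fun i => ⟨aeval t' (P i), haevalS (P i)⟩, Subtype.ext ?_⟩
    rw [Fintype.linearCombination_apply]
    show ((∑ i, (⟨aeval t' (P i), haevalS (P i)⟩ : ↥S) • e' i : ↥B) : F) = x
    rw [AddSubmonoidClass.coe_finsetSum, hP]
    refine Finset.sum_congr rfl fun i _ => ?_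
    show ((aeval t' (P i) * e' i : ↥B) : F) = _
    rw [MulMemClass.coe_mul]
    congr 1
    have : ((aeval t' (P i) : ↥B) : F) = B.val (aeval t' (P i)) := rfl
    rw [this, ← aeval_algHom_apply]
    rfl
  exact Module.Finite.trans ↥S ↥B

variable [IsDomain R] [IsDomain A] [IsNoetherianRing A] [IsIntegrallyClosed A]

/-- **`B_j` is a projective `B'_j`-module** (chart form). -/
theorem projective_of_chart_data {π : R}
    (hR : ∀ p : Ideal R, p.IsPrime → p ≠ ⊥ → π ∈ p)
    (s : A) (hint : ∀ a : A, (aeval (R := R) s).toRingHom.IsIntegralElem a)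
    (hπA : algebraMap R A π ≠ 0)
    [IsDedekindDomain (A ⧸ Ideal.span {algebraMap R A π})]
    (φ : A →ₐ[R] F) (hφ : Function.Injective φ) (B : Subalgebra R F) (hφB : ∀ a, φ a ∈ B)
    (hfinite : ChartFinite φ B hφB)
    (O1 O2 : ValuationSubring F)
    (hB1 : ∀ x ∈ B, x ∈ O1) (hB2 : ∀ x ∈ B, x ∈ O2)
    (unif1 : ∀ x ∈ O1, x⁻¹ ∉ O1 → ∃ c ∈ O1, x = algebraMap R F π * c)
    (unif2 : ∀ x ∈ O2, x⁻¹ ∉ O2 → ∃ c ∈ O2, x = algebraMap R F π * c)
    (sat : ∀ b ∈ B, ∀ c : F, c ∈ O1 → c ∈ O2 → b = algebraMap R F π * c → c ∈ B)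
    (hker1 : ∀ a : A, (∃ c ∈ O1, φ a = algebraMap R F π * c) →
      a ∈ Ideal.span {algebraMap R A π})
    (hker2 : ∀ a : A, (∃ c ∈ O2, φ a = algebraMap R F π * c) →
      a ∈ Ideal.span {algebraMap R A π}) :
    ChartProjective φ B hφB := by
  letI := chartAlgebra φ B hφB
  show Module.Projective A ↥B
  have hfinite' : Module.Finite A ↥B := hfinite
  -- torsion-freeness
  have htors : Module.IsTorsionFree A ↥B := by
    refine Module.IsTorsionFree.of_smul_eq_zero fun a b hab => ?_
    have h1 : φ a * (b : F) = 0 := congrArg (fun z : ↥B => (z : F)) hab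
    rcases mul_eq_zero.mp h1 with h2 | h2
    · left
      exact hφ (by rw [h2, map_zero])
    · right
      exact Subtype.ext h2
  -- the generic fibre
  letI algX : Algebra R[X] A := (aeval (R := R) s).toRingHom.toAlgebra
  have hintX : Algebra.IsIntegral R[X] A := ⟨hint⟩
  have hC : algebraMap R[X] A (C π) = algebraMap R A π := by
    show aeval (R := R) s (C π) = algebraMap R A π
    rw [aeval_C]
  have hφπ : φ (algebraMap R A π) = algebraMap R F π := φ.commutes π
  have hπF : algebraMap R F π ≠ 0 := by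
    rw [← hφπ]
    intro h0
    exact hπA (hφ (by rw [h0, map_zero]))
  refine projective_of_global hπA
    (fun P _ hP => isPrincipalIdealRing_localization_of_polynomial hR P (by rwa [hC])) ?_
  -- the special fibre: `B / π B` is torsion-free over `A / π`
  intro a m m' hamm
  by_cases hdvd : algebraMap R A π ∣ a
  · exact Or.inl hdvd
  right
  have ha0 : φ a ≠ 0 := by
    intro h0
    apply hdvd
    have : a = 0 := hφ (by rw [h0, map_zero])
    rw [this]
    exact dvd_zero _
  have heq : φ a * (m : F) = algebraMap R F π * (m' : F) := by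
    have h1 := congrArg (fun z : ↥B => (z : F)) hamm
    rw [← hφπ]
    exact h1
  have hunit : ∀ (Oj : ValuationSubring F), (∀ x ∈ B, x ∈ Oj) →
      (∀ x ∈ Oj, x⁻¹ ∉ Oj → ∃ c ∈ Oj, x = algebraMap R F π * c) →
      (∀ a : A, (∃ c ∈ Oj, φ a = algebraMap R F π * c) → a ∈ Ideal.span {algebraMap R A π}) →
      (m' : F) * (φ a)⁻¹ ∈ Oj := by
    intro Oj hBj unifj hkerj
    have hinv : (φ a)⁻¹ ∈ Oj := by
      by_contra hn
      obtain ⟨c, hc, hac⟩ := unifj (φ a) (hBj _ (hφB a)) hn
      exact hdvd (Ideal.mem_span_singleton.mp (hkerj a ⟨c, hc, hac⟩))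
    exact Oj.mul_mem _ _ (hBj _ m'.2) hinv
  have hm : (m : F) = algebraMap R F π * ((m' : F) * (φ a)⁻¹) := by
    field_simp
    rw [mul_comm, heq]
  have hc : (m' : F) * (φ a)⁻¹ ∈ B :=
    sat m m.2 _ (hunit O1 hB1 unif1 hker1) (hunit O2 hB2 unif2 hker2) hm
  refine ⟨⟨_, hc⟩, Subtype.ext ?_⟩
  show (m : F) = φ (algebraMap R A π) * ((m' : F) * (φ a)⁻¹)
  rw [hφπ, hm]

end Chart

end Fermat.Agent.T1B.NormModel99
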