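/-
Programme T1B (row 38 via S44), cell TORIC50, brick NORM-MODEL part B (helper99), file 3: VALUATION layer
(`Mathlib` + `RED/PUR/UniqueExt20` + `RED/PUR/ChartGeneric22`, all light).

Purpose: extra output (i) "the nodal charts are `β`-compatible": `B_j` is ALSO the integral closure of
`R[yN^{±1}]`.  The missing inclusion (`tN` integral over `R[yN]`) is obtained as in `ModEq23.yN_mem_B0`
(integrality over `K[yN]` + `π`-saturation in `O1 ⊓ O2`), and the saturation of `chart R yN` comes from
`SatTwo22.sat_both₂`, whose only non-formal input is (TWO) for `K(yN)`.  This file proves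

* `CenterPi π s V` : the centre of `V` on `R[s]` is `(π)` (literal shape of `hcen0` in `SatTwo22.sat_both₂`);
* `isIntegral_residue_of_isIntegralElem` (S), `center_transfer` (B) : if `y` is integral over `R[t]`, `y⁻¹` over
  `R[t⁻¹]`, `y` transcendental over `R`, then every valuation ring `V ⊇ R[y]` with centre `(π)` on `R[y]` contains
  `t` and has centre `(π)` on `R[t]` (residue-field argument: `res y` transcendental over `k = R/π`);
* `div_mem_iff_of_center` (A') : the restriction of such a `V` to `Frac R[s]` is determined by the centre;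
* **`two_of_two`** : (TWO) for `K(t)` ⟹ (TWO) for `K(y)`;
* `finiteDimensional_adjoin_of_isIntegral` : `F / K(t)` finite, `t` integral over `K[y]` ⟹ `F / K(y)` finite.
-/
import Mathlib
import Fermat.Agent.RED.PUR.UniqueExt20
import Fermat.Agent.RED.PUR.ChartGeneric22
import Fermat.Agent.T1B.NormModel99.ChartProj

set_option autoImplicit false
set_option linter.unusedSectionVars false
set_option linter.style.haveILetI false

open Polynomial

noncomputable section

namespace Fermat.Agent.T1B.NormModel99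

open Fermat.Agent.RED.PUR.UniqueExt20

section Center

variable {R : Type*} [CommRing R] {F : Type*} [Field F] [Algebra R F]

/-- The centre of `V` on `R[s]` is `(π)`: literal shape of `hcen0`/`hcen1` of `SatTwo22.sat_both₂`. -/
def CenterPi (π : R) (s : F) (V : ValuationSubring F) : Prop :=
  ∀ p ∈ Algebra.adjoin R {s}, V.valuation p < 1 →
    ∃ p' ∈ Algebra.adjoin R {s}, p = algebraMap R F π * p'

variable {π : R} (V : ValuationSubring F) (hRV : ∀ r : R, algebraMap R F r ∈ V)

/-- The structure map `R → V`. -/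
def toV : R →+* ↥V := (algebraMap R F).codRestrict V.toSubring hRV

/-- The residue map on `R`. -/
def resR : R →+* IsLocalRing.ResidueField ↥V := (IsLocalRing.residue ↥V).comp (toV V hRV)

theorem residue_eq_zero_iff' (x : ↥V) :
    IsLocalRing.residue ↥V x = 0 ↔ V.valuation (x : F) < 1 := by
  rw [IsLocalRing.residue_eq_zero_iff, ValuationSubring.valuation_lt_one_iff]

theorem aeval_mem (hRV : ∀ r : R, algebraMap R F r ∈ V) {x : F} (hx : x ∈ V) (P : R[X]) :
    aeval x P ∈ V := by
  rw [aeval_def, eval₂_eq_sum_range]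
  exact V.toSubring.sum_mem fun i _ => V.mul_mem _ _ (hRV _) (pow_mem hx i)

/-- `res (P(x)) = P^{res}(res x)`. -/
theorem residue_aeval {x : F} (hx : x ∈ V) (P : R[X]) :
    IsLocalRing.residue ↥V ⟨aeval x P, aeval_mem V hRV hx P⟩ =
      eval₂ (resR V hRV) (IsLocalRing.residue ↥V ⟨x, hx⟩) P := by
  have h1 : (⟨aeval x P, aeval_mem V hRV hx P⟩ : ↥V) = eval₂ (toV V hRV) ⟨x, hx⟩ P := by
    apply Subtype.ext
    have : ((eval₂ (toV V hRV) (⟨x, hx⟩ : ↥V) P : ↥V) : F) =
        V.subtype (eval₂ (toV V hRV) (⟨x, hx⟩ : ↥V) P) := rfl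
    rw [this, hom_eval₂]
    show aeval x P = _
    rw [aeval_def]
    rfl
  rw [h1, hom_eval₂]
  rfl

end Center

section Residue

variable {R : Type*} [CommRing R] {F : Type*} [Field F] [Algebra R F]
  {π : R} (V : ValuationSubring F)

theorem resR_pi (hRV : ∀ r : R, algebraMap R F r ∈ V)
    (hπV : V.valuation (algebraMap R F π) < 1) : resR V hRV π = 0 := by
  show IsLocalRing.residue ↥V ⟨algebraMap R F π, hRV π⟩ = 0
  rw [residue_eq_zero_iff']; exact hπV

/-- `k = R / π → κ(V)`. -/
def resK (hRV : ∀ r : R, algebraMap R F r ∈ V)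
    (hπV : V.valuation (algebraMap R F π) < 1) :
    (R ⧸ Ideal.span {π}) →+* IsLocalRing.ResidueField ↥V :=
  Ideal.Quotient.lift (Ideal.span {π}) (resR V hRV) (by
    intro a ha
    obtain ⟨c, rfl⟩ := Ideal.mem_span_singleton.mp ha
    rw [map_mul, resR_pi V hRV hπV, zero_mul])

theorem resK_mk (hRV : ∀ r : R, algebraMap R F r ∈ V)
    (hπV : V.valuation (algebraMap R F π) < 1) (r : R) :
    resK V hRV hπV (Ideal.Quotient.mk _ r) = resR V hRV r := rfl

/-- `R[X] → V`, `X ↦ u`. -/
def aevalV (hRV : ∀ r : R, algebraMap R F r ∈ V) (u' : ↥V) : R[X] →+* ↥V :=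
  eval₂RingHom (toV V hRV) u'

theorem subtype_comp_aevalV (hRV : ∀ r : R, algebraMap R F r ∈ V) (u' : ↥V) :
    V.subtype.comp (aevalV V hRV u') = (aeval (R := R) (u' : F)).toRingHom := by
  apply Polynomial.ringHom_ext
  · intro r
    simp [aevalV, toV]
  · simp [aevalV]

/-- **(S)** `w` integral over `R[u]`, `u, w ∈ V`, `res u` integral over `k = R / π` ⟹ `res w` is
integral over `k`. -/
theorem isIntegral_residue_of_isIntegralElem (hRV : ∀ r : R, algebraMap R F r ∈ V)
    (hπV : V.valuation (algebraMap R F π) < 1) {u w : F} (hu : u ∈ V) (hw : w ∈ V)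
    (hint : (aeval (R := R) u).toRingHom.IsIntegralElem w)
    (halg : letI := (resK V hRV hπV).toAlgebra
      IsIntegral (R ⧸ Ideal.span {π}) (IsLocalRing.residue ↥V ⟨u, hu⟩)) :
    letI := (resK V hRV hπV).toAlgebra
    IsIntegral (R ⧸ Ideal.span {π}) (IsLocalRing.residue ↥V ⟨w, hw⟩) := by
  letI := (resK V hRV hπV).toAlgebra
  set k := R ⧸ Ideal.span {π} with hk
  set κ := IsLocalRing.ResidueField ↥V with hκ
  set ub : κ := IsLocalRing.residue ↥V ⟨u, hu⟩ with hub
  set wb : κ := IsLocalRing.residue ↥V ⟨w, hw⟩ with hwb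
  obtain ⟨Q, hQm, hQ⟩ := hint
  -- `Q(w) = 0` in `V`
  have hQV : eval₂ (aevalV V hRV ⟨u, hu⟩) (⟨w, hw⟩ : ↥V) Q = 0 := by
    apply V.subtype_injective
    rw [hom_eval₂, subtype_comp_aevalV, map_zero]
    exact hQ
  -- the composite `R[X] → V → κ` factors through `k[X] → k[ub]`
  let T : Subalgebra k κ := Algebra.adjoin k {ub}
  let g : k[X] →ₐ[k] T :=
    (aeval ub).codRestrict _ (fun p => by
      show aeval ub p ∈ Algebra.adjoin k {ub}
      rw [Algebra.adjoin_singleton_eq_range_aeval]; exact ⟨p, rfl⟩)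
  have hcomp : ((algebraMap T κ).comp g.toRingHom).comp (mapRingHom (Ideal.Quotient.mk
      (Ideal.span {π}))) = (IsLocalRing.residue ↥V).comp (aevalV V hRV ⟨u, hu⟩) := by
    apply Polynomial.ringHom_ext
    · intro r
      simp only [RingHom.comp_apply, coe_mapRingHom, map_C]
      show aeval ub (C (Ideal.Quotient.mk (Ideal.span {π}) r)) = _
      rw [aeval_C]
      simp [aevalV]
      rfl
    · simp only [RingHom.comp_apply, coe_mapRingHom, map_X]
      show aeval ub (X : k[X]) = _
      rw [aeval_X]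
      simp [aevalV]
      rfl
  have h1 : IsIntegral T wb := by
    refine ⟨(Q.map (mapRingHom (Ideal.Quotient.mk (Ideal.span {π})))).map g.toRingHom,
      (hQm.map _).map _, ?_⟩
    rw [eval₂_map, eval₂_map, hcomp, ← hom_eval₂, hQV, map_zero]
  have h2 : Algebra.IsIntegral k T := Algebra.IsIntegral.adjoin (by
    intro x hx
    rw [Set.mem_singleton_iff] at hx
    rw [hx]
    exact halg)
  exact isIntegral_trans wb h1

/-- `eval₂ (resR) (res x) P`, as `aeval` over `k`. -/
theorem aeval_map_mk (hRV : ∀ r : R, algebraMap R F r ∈ V)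
    (hπV : V.valuation (algebraMap R F π) < 1) {x : F} (hx : x ∈ V) (P : R[X]) :
    letI := (resK V hRV hπV).toAlgebra
    aeval (IsLocalRing.residue ↥V ⟨x, hx⟩) (P.map (Ideal.Quotient.mk (Ideal.span {π}))) =
      IsLocalRing.residue ↥V ⟨aeval x P, aeval_mem V hRV hx P⟩ := by
  letI := (resK V hRV hπV).toAlgebra
  rw [residue_aeval V hRV hx P, aeval_def, eval₂_map]
  rfl

/-- **(B) transfer of the centre.**  `(π)` maximal in `R`, `y` transcendental over `R`, `y` integral
over `R[t]` and `y⁻¹` over `R[t⁻¹]`.  A valuation ring `V ⊇ R[y]` with `π ∈ 𝔪_V` whose centre on `R[y]`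
is `(π)` contains `t`, and its centre on `R[t]` is `(π)`. -/
theorem center_transfer [hmax : (Ideal.span {π}).IsMaximal] {t y : F}
    (hytr : Transcendental R y)
    (hint0 : IsIntegral (Algebra.adjoin R {t}) y)
    (hint1 : IsIntegral (Algebra.adjoin R {t⁻¹}) y⁻¹)
    (hRV : ∀ r : R, algebraMap R F r ∈ V)
    (hπV : V.valuation (algebraMap R F π) < 1) (hyV : y ∈ V) (hcen : CenterPi π y V) :
    t ∈ V ∧ CenterPi π t V := by
  letI := (resK V hRV hπV).toAlgebra
  set k := R ⧸ Ideal.span {π} with hk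
  have hmkπ : Ideal.Quotient.mk (Ideal.span {π}) π = 0 :=
    Ideal.Quotient.eq_zero_iff_mem.mpr (Ideal.mem_span_singleton_self π)
  -- a polynomial over `R` whose reduction kills the residue of a "Gauss" element is divisible by `π`
  have hdiv : ∀ {x : F} (hx : x ∈ V), Transcendental k (IsLocalRing.residue ↥V ⟨x, hx⟩) →
      ∀ P : R[X], V.valuation (aeval x P) < 1 → ∃ P' : R[X], P = C π * P' := by
    intro x hx htr P hP
    have h1 : IsLocalRing.residue ↥V ⟨aeval x P, aeval_mem V hRV hx P⟩ = 0 := by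
      rw [residue_eq_zero_iff']; exact hP
    rw [← aeval_map_mk V hRV hπV hx P] at h1
    have h2 : P.map (Ideal.Quotient.mk (Ideal.span {π})) = 0 := (transcendental_iff.1 htr) _ h1
    have h3 : C π ∣ P := by
      rw [C_dvd_iff_dvd_coeff]
      intro i
      have : Ideal.Quotient.mk (Ideal.span {π}) (P.coeff i) = 0 := by
        rw [← coeff_map, h2, coeff_zero]
      exact Ideal.mem_span_singleton.mp (Ideal.Quotient.eq_zero_iff_mem.mp this)
    exact h3
  -- (1) the residue of `y` is transcendental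
  have hyb : Transcendental k (IsLocalRing.residue ↥V ⟨y, hyV⟩) := by
    rintro ⟨Gb, hGb0, hGb⟩
    obtain ⟨G, rfl⟩ := Polynomial.map_surjective _ Ideal.Quotient.mk_surjective Gb
    rw [aeval_map_mk V hRV hπV hyV G, residue_eq_zero_iff'] at hGb
    obtain ⟨p', hp', hG⟩ := hcen _ (aeval_mem_adjoin_singleton R y) hGb
    obtain ⟨P', rfl⟩ := mem_adjoin_singleton_iff_aeval.mp hp'
    have h1 : aeval y (G - C π * P') = 0 := by
      rw [map_sub, map_mul, aeval_C, hG, sub_self]
    have h2 : G = C π * P' := sub_eq_zero.mp ((transcendental_iff.1 hytr) _ h1)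
    apply hGb0
    rw [h2, Polynomial.map_mul, map_C, hmkπ, C_0, zero_mul]
  -- (2) `y` is a unit of `V`
  have hyinv : y⁻¹ ∈ V := by
    by_contra hn
    have h1 : V.valuation y < 1 := (val_lt_one_iff V).mpr (Or.inr hn)
    have h2 : IsLocalRing.residue ↥V ⟨y, hyV⟩ = 0 := by rw [residue_eq_zero_iff']; exact h1
    exact hyb (h2 ▸ isAlgebraic_zero)
  have hy0 : y ≠ 0 := by
    rintro rfl
    have h2 : IsLocalRing.residue ↥V ⟨0, hyV⟩ = 0 := by
      rw [residue_eq_zero_iff', map_zero]; exact zero_lt_one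
    exact hyb (h2 ▸ isAlgebraic_zero)
  -- (3) `t ∈ V`
  have htV : t ∈ V := by
    by_contra hn
    have htinv : t⁻¹ ∈ V := (V.mem_or_inv_mem t).resolve_left hn
    have h1 : V.valuation t⁻¹ < 1 := (val_lt_one_iff V).mpr (Or.inr (by rwa [inv_inv]))
    have h2 : IsLocalRing.residue ↥V ⟨t⁻¹, htinv⟩ = 0 := by rw [residue_eq_zero_iff']; exact h1
    have h3 := isIntegral_residue_of_isIntegralElem V hRV hπV htinv hyinv
      (isIntegralElem_aeval_of_isIntegral_adjoin hint1) (h2 ▸ isIntegral_zero)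
    have h4 : IsLocalRing.residue ↥V ⟨y, hyV⟩ * IsLocalRing.residue ↥V ⟨y⁻¹, hyinv⟩ = 1 := by
      rw [← map_mul]
      have : (⟨y, hyV⟩ * ⟨y⁻¹, hyinv⟩ : ↥V) = 1 := Subtype.ext (mul_inv_cancel₀ hy0)
      rw [this, map_one]
    have h5 : IsLocalRing.residue ↥V ⟨y, hyV⟩ = (IsLocalRing.residue ↥V ⟨y⁻¹, hyinv⟩)⁻¹ :=
      eq_inv_of_mul_eq_one_left h4
    exact hyb (h5 ▸ h3.isAlgebraic.inv)
  refine ⟨htV, ?_⟩
  -- (4) the residue of `t` is transcendental
  have htb : Transcendental k (IsLocalRing.residue ↥V ⟨t, htV⟩) := by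
    intro halg
    have hti : IsIntegral k (IsLocalRing.residue ↥V ⟨t, htV⟩) := by
      obtain ⟨Gb, hGb0, hGb⟩ := halg
      obtain ⟨c, hc⟩ := Ideal.Quotient.exists_inv (I := Ideal.span {π}) (a := Gb.leadingCoeff)
        (leadingCoeff_ne_zero.mpr hGb0)
      refine ⟨C c * Gb, monic_C_mul_of_mul_leadingCoeff_eq_one (by rw [mul_comm]; exact hc), ?_⟩
      rw [← aeval_def, map_mul, hGb, mul_zero]
    have h3 := isIntegral_residue_of_isIntegralElem V hRV hπV htV hyV
      (isIntegralElem_aeval_of_isIntegral_adjoin hint0) hti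
    exact hyb h3.isAlgebraic
  -- (5) the centre
  intro p hp hpv
  obtain ⟨P, rfl⟩ := mem_adjoin_singleton_iff_aeval.mp hp
  obtain ⟨P', rfl⟩ := hdiv htV htb P hpv
  refine ⟨aeval t P', aeval_mem_adjoin_singleton R t, ?_⟩
  rw [map_mul, aeval_C]

end Residue

section Restriction

variable {R : Type*} [CommRing R] [IsNoetherianRing R] {F : Type*} [Field F] [Algebra R F]
  {π : R} {s : F}

/-- Factorisation `p = π ^ n * a` in `R[s]` with `π ∤ a` (`π` a non-unit of `R[s]`, witnessed by a
valuation ring `V ⊇ R[s]` with `π ∈ 𝔪_V`). -/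
theorem exists_pow_mul_not_dvd (V : ValuationSubring F) (hRV : ∀ r : R, algebraMap R F r ∈ V)
    (hsV : s ∈ V) (hπV : V.valuation (algebraMap R F π) < 1)
    {p : F} (hp : p ∈ Algebra.adjoin R {s}) (hp0 : p ≠ 0) :
    ∃ (n : ℕ) (a : F), a ∈ Algebra.adjoin R {s} ∧ p = algebraMap R F π ^ n * a ∧
      ¬ ∃ a' ∈ Algebra.adjoin R {s}, a = algebraMap R F π * a' := by
  have hSV : ∀ x ∈ Algebra.adjoin R {s}, x ∈ V := by
    intro x hx
    obtain ⟨P, rfl⟩ := mem_adjoin_singleton_iff_aeval.mp hx
    exact aeval_mem V hRV hsV P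
  have hnoeth : IsNoetherianRing ↥(Algebra.adjoin R {s}) :=
    isNoetherianRing_of_fg ⟨{s}, by simp⟩
  set π' : Algebra.adjoin R {s} := algebraMap R (Algebra.adjoin R {s}) π with hπ'
  have hπ'F : ((π' : Algebra.adjoin R {s}) : F) = algebraMap R F π := rfl
  have hnu : ¬ IsUnit π' := by
    intro hu
    obtain ⟨u, hu⟩ := hu.exists_right_inv
    have h1 : algebraMap R F π * (u : F) = 1 := by
      have := congrArg (fun z : Algebra.adjoin R {s} => (z : F)) hu
      simp only [MulMemClass.coe_mul, OneMemClass.coe_one, hπ'F] at this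
      exact this
    have h2 : V.valuation (algebraMap R F π * (u : F)) < 1 := by
      rw [map_mul]
      exact (mul_le_of_le_one_right' ((V.valuation_le_one_iff _).mpr (hSV _ u.2))).trans_lt hπV
    rw [h1, map_one] at h2
    exact lt_irrefl _ h2
  have hp0' : (⟨p, hp⟩ : Algebra.adjoin R {s}) ≠ 0 := fun h0 =>
    hp0 (congrArg (fun z : Algebra.adjoin R {s} => (z : F)) h0)
  obtain ⟨n, a, hna, hpa⟩ := WfDvdMonoid.max_power_factor' hp0' hnu
  refine ⟨n, (a : F), a.2, ?_, ?_⟩
  · have := congrArg (fun z : Algebra.adjoin R {s} => (z : F)) hpa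
    simp only [MulMemClass.coe_mul, SubmonoidClass.coe_pow, hπ'F] at this
    exact this
  · rintro ⟨a', ha', haa'⟩
    exact hna ⟨⟨a', ha'⟩, Subtype.ext haa'⟩

/-- In a valuation ring with centre `(π)` on `R[s]`, `v(π ^ n * a) = v(π) ^ n` for `π ∤ a`. -/
theorem val_pow_mul_of_center (V : ValuationSubring F) (hRV : ∀ r : R, algebraMap R F r ∈ V)
    (hsV : s ∈ V) (hcen : CenterPi π s V) (n : ℕ) {a : F} (ha : a ∈ Algebra.adjoin R {s})
    (hna : ¬ ∃ a' ∈ Algebra.adjoin R {s}, a = algebraMap R F π * a') :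
    V.valuation (algebraMap R F π ^ n * a) = V.valuation (algebraMap R F π) ^ n := by
  have haV : a ∈ V := by
    obtain ⟨P, rfl⟩ := mem_adjoin_singleton_iff_aeval.mp ha
    exact aeval_mem V hRV hsV P
  have ha1 : V.valuation a = 1 :=
    le_antisymm ((V.valuation_le_one_iff _).mpr haV) (not_lt.mp fun hlt => hna (hcen a ha hlt))
  rw [map_mul, map_pow, ha1, mul_one]

/-- **(A') The restriction to `Frac R[s]` is determined by the centre.** -/
theorem div_mem_iff_of_center (V₁ V₂ : ValuationSubring F)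
    (hR₁ : ∀ r : R, algebraMap R F r ∈ V₁) (hs₁ : s ∈ V₁)
    (hπ₁ : V₁.valuation (algebraMap R F π) < 1) (hcen₁ : CenterPi π s V₁)
    (hR₂ : ∀ r : R, algebraMap R F r ∈ V₂) (hs₂ : s ∈ V₂)
    (hπ₂ : V₂.valuation (algebraMap R F π) < 1) (hcen₂ : CenterPi π s V₂)
    (hπ0 : algebraMap R F π ≠ 0)
    {a b : F} (ha : a ∈ Algebra.adjoin R {s}) (hb : b ∈ Algebra.adjoin R {s}) (hb0 : b ≠ 0) :
    a / b ∈ V₁ ↔ a / b ∈ V₂ := by
  by_cases ha0 : a = 0
  · rw [ha0, zero_div]
    exact ⟨fun _ => V₂.zero_mem, fun _ => V₁.zero_mem⟩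
  obtain ⟨n, a', ha', hna, hna'⟩ := exists_pow_mul_not_dvd V₁ hR₁ hs₁ hπ₁ ha ha0
  obtain ⟨m, b', hb', hmb, hmb'⟩ := exists_pow_mul_not_dvd V₁ hR₁ hs₁ hπ₁ hb hb0
  have key : ∀ (V : ValuationSubring F), (∀ r : R, algebraMap R F r ∈ V) → s ∈ V →
      V.valuation (algebraMap R F π) < 1 → CenterPi π s V → (a / b ∈ V ↔ m ≤ n) := by
    intro V hRV hsV hπV hcen
    have hpos : 0 < V.valuation (algebraMap R F π) := val_pos V hπ0
    have hvb : 0 < V.valuation b := val_pos V hb0
    rw [← V.valuation_le_one_iff, map_div₀, div_le_one₀ hvb, hna, hmb,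
      val_pow_mul_of_center V hRV hsV hcen n ha' hna',
      val_pow_mul_of_center V hRV hsV hcen m hb' hmb',
      pow_le_pow_iff_right_of_lt_one₀ hpos hπV]
  rw [key V₁ hR₁ hs₁ hπ₁ hcen₁, key V₂ hR₂ hs₂ hπ₂ hcen₂]

end Restriction

section Two

open Fermat.Agent.RED.PUR.ChartGeneric22

variable {R K F : Type*} [CommRing R] [IsDomain R] [IsNoetherianRing R] [Field K] [Field F]
  [Algebra R K] [Algebra K F] [Algebra R F] [IsScalarTower R K F] [IsFractionRing R K]

/-- **(TWO) for `K(y)` from (TWO) for `K(t)`**: if `O₁, O₂` are the only valuation rings of `F` over the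
Gauss valuation of `K(t)`, then they are the only ones over the Gauss valuation of `K(y)`, as soon as
`y` is integral over `R[t]`, `y⁻¹` over `R[t⁻¹]` (the modular equation) and `O₁` has centre `(π)`
on `R[t]` and on `R[y]`. -/
theorem two_of_two {π : R} [hmax : (Ideal.span {π}).IsMaximal] {t y : F}
    (hytr : Transcendental R y)
    (hint0 : IsIntegral (Algebra.adjoin R {t}) y)
    (hint1 : IsIntegral (Algebra.adjoin R {t⁻¹}) y⁻¹)
    (O₁ O₂ : ValuationSubring F) (hR₁ : ∀ r : R, algebraMap R F r ∈ O₁)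
    (ht₁ : t ∈ O₁) (hy₁ : y ∈ O₁) (hπ₁ : O₁.valuation (algebraMap R F π) < 1)
    (hπ0 : algebraMap R F π ≠ 0)
    (hcent : CenterPi π t O₁) (hceny : CenterPi π y O₁)
    (htwo : ∀ V : ValuationSubring F,
      V.comap (algebraMap (IntermediateField.adjoin K {t}) F) =
        O₁.comap (algebraMap (IntermediateField.adjoin K {t}) F) → V = O₁ ∨ V = O₂) :
    ∀ V : ValuationSubring F,
      V.comap (algebraMap (IntermediateField.adjoin K {y}) F) =
        O₁.comap (algebraMap (IntermediateField.adjoin K {y}) F) → V = O₁ ∨ V = O₂ := by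
  intro V hV
  have hmem : ∀ x ∈ IntermediateField.adjoin K {y}, (x ∈ V ↔ x ∈ O₁) := by
    intro x hx
    have h1 : (⟨x, hx⟩ : IntermediateField.adjoin K {y}) ∈
        V.comap (algebraMap (IntermediateField.adjoin K {y}) F) ↔
        (⟨x, hx⟩ : IntermediateField.adjoin K {y}) ∈
        O₁.comap (algebraMap (IntermediateField.adjoin K {y}) F) := by rw [hV]
    exact h1
  have hyE : y ∈ IntermediateField.adjoin K {y} := IntermediateField.mem_adjoin_simple_self K y
  have hRE : ∀ r : R, algebraMap R F r ∈ IntermediateField.adjoin K {y} := by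
    intro r
    rw [IsScalarTower.algebraMap_apply R K F]
    exact (IntermediateField.adjoin K {y}).algebraMap_mem _
  have hSE : ∀ p ∈ Algebra.adjoin R {y}, p ∈ IntermediateField.adjoin K {y} := fun p hp =>
    adjoin_le_intermediateField (R := R) _ hyE hp
  have hRV : ∀ r : R, algebraMap R F r ∈ V := fun r => (hmem _ (hRE r)).mpr (hR₁ r)
  have hyV : y ∈ V := (hmem _ hyE).mpr hy₁
  have hlt : ∀ x ∈ IntermediateField.adjoin K {y}, (V.valuation x < 1 ↔ O₁.valuation x < 1) := by
    intro x hx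
    rw [val_lt_one_iff, val_lt_one_iff, hmem _ (inv_mem hx)]
  have hπV : V.valuation (algebraMap R F π) < 1 := (hlt _ (hRE π)).mpr hπ₁
  have hcenV : CenterPi π y V := fun p hp hpv => hceny p hp ((hlt p (hSE p hp)).mp hpv)
  obtain ⟨htV, hcentV⟩ := center_transfer V hytr hint0 hint1 hRV hπV hyV hcenV
  apply htwo
  have htE : t ∈ IntermediateField.adjoin K {t} := IntermediateField.mem_adjoin_simple_self K t
  letI : Algebra (Algebra.adjoin R {t}) (IntermediateField.adjoin K {t}) :=
    (adjoinToField (IntermediateField.adjoin K {t}) htE).toAlgebra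
  have hfrac : IsFractionRing (Algebra.adjoin R {t}) (IntermediateField.adjoin K {t}) :=
    isFractionRing_adjoin (IntermediateField.adjoin K {t}) htE le_rfl
  ext x
  rw [ValuationSubring.mem_comap, ValuationSubring.mem_comap]
  obtain ⟨a, b, hb, hab⟩ := IsFractionRing.div_surjective (Algebra.adjoin R {t}) x
  have hab' : algebraMap (IntermediateField.adjoin K {t}) F x = (a : F) / (b : F) := by
    rw [← hab]
    rfl
  have hb0 : (b : F) ≠ 0 := by
    intro h0
    exact nonZeroDivisors.ne_zero hb (Subtype.ext h0)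
  rw [hab']
  exact div_mem_iff_of_center V O₁ hRV htV hπV hcentV hR₁ ht₁ hπ₁ hcent hπ0 a.2 b.2 hb0

end Two

section FiniteDim

/-- `F / K(t)` finite and `t` integral over `K[y]`  ⟹  `F / K(y)` finite. -/
theorem finiteDimensional_adjoin_of_isIntegral {K F : Type*} [Field K] [Field F] [Algebra K F]
    {t y : F} [FiniteDimensional (IntermediateField.adjoin K {t}) F]
    (h : IsIntegral (Algebra.adjoin K {y}) t) :
    FiniteDimensional (IntermediateField.adjoin K {y}) F := by
  set L := IntermediateField.adjoin K {y} with hL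
  have hle : Algebra.adjoin K {y} ≤ L.toSubalgebra := IntermediateField.algebra_adjoin_le_adjoin K _
  have hLt : IsIntegral L t := by
    obtain ⟨P, hP, hPt⟩ := h
    refine ⟨P.map (Subalgebra.inclusion hle).toRingHom, hP.map _, ?_⟩
    rw [eval₂_map]
    exact hPt
  let M : IntermediateField L F := IntermediateField.adjoin L {t}
  have hLM : FiniteDimensional L M := IntermediateField.adjoin.finiteDimensional hLt
  have hKt_le : IntermediateField.adjoin K {t} ≤ M.restrictScalars K := by
    rw [IntermediateField.adjoin_le_iff, Set.singleton_subset_iff]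
    exact IntermediateField.mem_adjoin_simple_self L t
  letI alg : Algebra (IntermediateField.adjoin K {t}) (M.restrictScalars K) :=
    (IntermediateField.inclusion hKt_le).toRingHom.toAlgebra
  haveI : IsScalarTower (IntermediateField.adjoin K {t}) (M.restrictScalars K) F :=
    IsScalarTower.of_algebraMap_eq (fun _ => rfl)
  have h1 : Module.Finite (M.restrictScalars K) F :=
    Module.Finite.of_restrictScalars_finite (IntermediateField.adjoin K {t}) _ F
  have h2 : Module.Finite M F := h1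
  exact Module.Finite.trans M F

end FiniteDim

end Fermat.Agent.T1B.NormModel99

end
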