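/-
Programme T1B (row 38 via S44), cell TORIC50, brick NORM-MODEL part B (helper99), file 5: extra output (i)
**the nodal charts are `β`-compatible**, at the level of Gauss pull-backs (vocabulary of `GaussEmb22` /
`G2Out22.glueOut_of_pullbacks`).

`O` a DVR of `K` (char 0) with uniformiser `π`, `F / K` a field, `V₁` the Gauss pull-back along `ι₁`, `V₂` a second
valuation ring, `t ∈ F` with the glue output `TwoGlue20.GlueOut K π t V₁ V₂` ((TWO), saturation …),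
`y ∈ F` with `ι₁ y` in the Gauss ring with transcendental residue, the modular equation
`y ∈ chart O t`, `y⁻¹ ∈ chart O t⁻¹` and, on the generic fibre, `t` integral over `K[y]`, `t⁻¹` over `K[y⁻¹]`
(`ModEq23.isIntegral_tq / isIntegral_inv_tq`).  Then

* `two_y`    : `V₁, V₂` are the only valuation rings of `F` over the Gauss valuation of `K(y)`;
* `sat_y`    : `chart O y`, `chart O y⁻¹` are `π`-saturated in `V₁ ⊓ V₂`;
* **`t_mem_chart_y`**, `tinv_mem_chart_yinv`, **`chart_eq`** : `chart O t = chart O y`, `chart O t⁻¹ = chart O y⁻¹`.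
-/
import Mathlib
import Fermat.Agent.ES.N34.G2Out22
import Fermat.Agent.ES.N34.SatIntegral18
import Fermat.Agent.T1B.NormModel99.Valuation

set_option autoImplicit false
set_option linter.unusedSectionVars false
set_option linter.style.haveILetI false
set_option synthInstance.maxHeartbeats 400000
set_option maxHeartbeats 1000000

noncomputable section

open HahnSeries Polynomial IntermediateField

namespace Fermat.Agent.T1B.NormModel99

open Fermat.Agent.RED.PUR.GaussGen8 Fermat.Agent.RED.PUR.KtGauss8 Fermat.Agent.RED.PUR.G1Package8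
  Fermat.Agent.RED.PUR.ChartGeneric22 Fermat.Agent.RED.PUR.UniqueExt20
  Fermat.Agent.ES.N34.GaussEmb22 Fermat.Agent.ES.N34.G2Out22 Fermat.Agent.ES.N34.SatIntegral18
  Fermat.Agent.ES.N34

section Pullback

variable {K : Type*} [Field K] [CharZero K] {O : ValuationSubring K} [IsDiscreteValuationRing ↥O]
  {π : ↥O} {F : Type*} [Field F] [Algebra K F] [Algebra ↥O F] [IsScalarTower ↥O K F]
  {ι₁ : F →ₐ[K] LaurentSeries K} {V₁ V₂ : ValuationSubring F} {t y : F}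

theorem isMaximal_span_pi (hπ : Irreducible π) : (Ideal.span {π} : Ideal ↥O).IsMaximal := by
  rw [← hπ.maximalIdeal_eq]
  exact IsLocalRing.maximalIdeal.isMaximal ↥O

/-- (TWO) for `K(y)`. -/
theorem two_y (hV₁ : IsGaussPullback O ι₁ V₁) (hπ : Irreducible π)
    (ht₁ : ι₁ t ∈ gaussRing O) (htr₁ : Transcendental (Res O) (gaussRed O ⟨ι₁ t, ht₁⟩))
    (hy₁ : ι₁ y ∈ gaussRing O) (hytr₁ : Transcendental (Res O) (gaussRed O ⟨ι₁ y, hy₁⟩))
    (glue : TwoGlue20.GlueOut K π t V₁ V₂)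
    (hy0 : y ∈ chart ↥O t) (hy1 : y⁻¹ ∈ chart ↥O t⁻¹) :
    ∀ V : ValuationSubring F,
      V.comap (algebraMap (IntermediateField.adjoin K {y}) F) =
        V₁.comap (algebraMap (IntermediateField.adjoin K {y}) F) → V = V₁ ∨ V = V₂ := by
  haveI := isMaximal_span_pi hπ
  have hytrK : Transcendental K y := transcendental_of_map hπ hy₁ hytr₁
  have hytrO : Transcendental ↥O y := transcendental_of_field (R := ↥O) hytrK
  have hπv : V₁.valuation (algebraMap ↥O F π) < 1 := by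
    rw [algebraMap_O_eq]; exact val_pi_lt_one hV₁ hπ
  exact two_of_two (K := K) hytrO (mem_chart_iff.mp hy0) (mem_chart_iff.mp hy1) V₁ V₂
    glue.R_le_O1 glue.t_mem_O1 ((hV₁ y).mpr hy₁) hπv glue.pi_ne
    (center_adjoin hV₁ hπ ht₁ htr₁) (center_adjoin hV₁ hπ hy₁ hytr₁) glue.two

/-- `chart O y`, `chart O y⁻¹` are `π`-saturated in `V₁ ⊓ V₂`. -/
theorem sat_y [FiniteDimensional (IntermediateField.adjoin K {t}) F]
    (hV₁ : IsGaussPullback O ι₁ V₁) (hπ : Irreducible π)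
    (ht₁ : ι₁ t ∈ gaussRing O) (htr₁ : Transcendental (Res O) (gaussRed O ⟨ι₁ t, ht₁⟩))
    (hy₁ : ι₁ y ∈ gaussRing O) (hytr₁ : Transcendental (Res O) (gaussRed O ⟨ι₁ y, hy₁⟩))
    (glue : TwoGlue20.GlueOut K π t V₁ V₂)
    (hy0 : y ∈ chart ↥O t) (hy1 : y⁻¹ ∈ chart ↥O t⁻¹)
    (hI2 : IsIntegral (Algebra.adjoin K {y}) t) :
    (∀ b ∈ chart ↥O y, ∀ c, c ∈ V₁ → c ∈ V₂ → b = algebraMap ↥O F π * c → c ∈ chart ↥O y) ∧
    (∀ b ∈ chart ↥O y⁻¹, ∀ c, c ∈ V₁ → c ∈ V₂ → b = algebraMap ↥O F π * c →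
      c ∈ chart ↥O y⁻¹) := by
  have hfd : FiniteDimensional (IntermediateField.adjoin K {y}) F :=
    finiteDimensional_adjoin_of_isIntegral hI2
  have hytrK : Transcendental K y := transcendental_of_map hπ hy₁ hytr₁
  have hπv : V₁.valuation (algebraMap ↥O F π) < 1 := by
    rw [algebraMap_O_eq]; exact val_pi_lt_one hV₁ hπ
  exact SatTwo22.sat_both₂ (R := ↥O) (K := K) hπ.prime hytrK V₁ V₂ glue.R_le_O1
    ((hV₁ y).mpr hy₁) ((hV₁ _).mpr (map_inv_mem hy₁ hytr₁)) hπv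
    (center_adjoin hV₁ hπ hy₁ hytr₁)
    (center_adjoin hV₁ hπ (map_inv_mem hy₁ hytr₁) (transcendental_inv hy₁ hytr₁))
    (two_y hV₁ hπ ht₁ htr₁ hy₁ hytr₁ glue hy0 hy1)

/-- **`t ∈ chart O y`**: `t` is integral over `O[y]`. -/
theorem t_mem_chart_y [FiniteDimensional (IntermediateField.adjoin K {t}) F]
    (hV₁ : IsGaussPullback O ι₁ V₁) (hπ : Irreducible π)
    (ht₁ : ι₁ t ∈ gaussRing O) (htr₁ : Transcendental (Res O) (gaussRed O ⟨ι₁ t, ht₁⟩))
    (hy₁ : ι₁ y ∈ gaussRing O) (hytr₁ : Transcendental (Res O) (gaussRed O ⟨ι₁ y, hy₁⟩))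
    (glue : TwoGlue20.GlueOut K π t V₁ V₂)
    (hy0 : y ∈ chart ↥O t) (hy1 : y⁻¹ ∈ chart ↥O t⁻¹)
    (hI2 : IsIntegral (Algebra.adjoin K {y}) t) : t ∈ chart ↥O y := by
  have hsat := (sat_y hV₁ hπ ht₁ htr₁ hy₁ hytr₁ glue hy0 hy1 hI2).1
  exact mem_of_isIntegral_field (R := ↥O) (K := K) (F := F) π (Fermat.Agent.RED.ModelAsm4.dvr_factor hπ)
    y (chart ↥O y) (fun x hx => mem_chart_iff.2 hx) V₁ V₂ (glue.R_le_O1 π) (glue.R_le_O2 π) hsat
    hI2 glue.t_mem_O1 glue.t_mem_O2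

/-- **`t⁻¹ ∈ chart O y⁻¹`**. -/
theorem tinv_mem_chart_yinv [FiniteDimensional (IntermediateField.adjoin K {t}) F]
    (hV₁ : IsGaussPullback O ι₁ V₁) (hπ : Irreducible π)
    (ht₁ : ι₁ t ∈ gaussRing O) (htr₁ : Transcendental (Res O) (gaussRed O ⟨ι₁ t, ht₁⟩))
    (hy₁ : ι₁ y ∈ gaussRing O) (hytr₁ : Transcendental (Res O) (gaussRed O ⟨ι₁ y, hy₁⟩))
    (glue : TwoGlue20.GlueOut K π t V₁ V₂)
    (hy0 : y ∈ chart ↥O t) (hy1 : y⁻¹ ∈ chart ↥O t⁻¹)
    (hI2 : IsIntegral (Algebra.adjoin K {y}) t)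
    (hI4 : IsIntegral (Algebra.adjoin K {y⁻¹}) t⁻¹) : t⁻¹ ∈ chart ↥O y⁻¹ := by
  have hsat := (sat_y hV₁ hπ ht₁ htr₁ hy₁ hytr₁ glue hy0 hy1 hI2).2
  exact mem_of_isIntegral_field (R := ↥O) (K := K) (F := F) π (Fermat.Agent.RED.ModelAsm4.dvr_factor hπ)
    y⁻¹ (chart ↥O y⁻¹) (fun x hx => mem_chart_iff.2 hx) V₁ V₂ (glue.R_le_O1 π) (glue.R_le_O2 π)
    hsat hI4 glue.tinv_mem_O1 glue.tinv_mem_O2

/-- `chart R s ≤ chart R s'` as soon as `s ∈ chart R s'`. -/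
theorem chart_le_of_mem {R F : Type*} [CommRing R] [Field F] [Algebra R F] {s s' : F}
    (h : s ∈ chart R s') : chart R s ≤ chart R s' := by
  intro x hx
  apply chart_intcl
  have hle : Algebra.adjoin R {s} ≤ chart R s' :=
    Algebra.adjoin_le (by
      intro z hz
      rw [Set.mem_singleton_iff] at hz
      rw [hz]
      exact h)
  obtain ⟨P, hP, hPx⟩ := mem_chart_iff.mp hx
  refine ⟨P.map (Subalgebra.inclusion hle).toRingHom, hP.map _, ?_⟩
  rw [eval₂_map]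
  exact hPx

/-- **The charts of `t` and of `y` coincide.** -/
theorem chart_eq [FiniteDimensional (IntermediateField.adjoin K {t}) F]
    (hV₁ : IsGaussPullback O ι₁ V₁) (hπ : Irreducible π)
    (ht₁ : ι₁ t ∈ gaussRing O) (htr₁ : Transcendental (Res O) (gaussRed O ⟨ι₁ t, ht₁⟩))
    (hy₁ : ι₁ y ∈ gaussRing O) (hytr₁ : Transcendental (Res O) (gaussRed O ⟨ι₁ y, hy₁⟩))
    (glue : TwoGlue20.GlueOut K π t V₁ V₂)
    (hy0 : y ∈ chart ↥O t) (hy1 : y⁻¹ ∈ chart ↥O t⁻¹)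
    (hI2 : IsIntegral (Algebra.adjoin K {y}) t)
    (hI4 : IsIntegral (Algebra.adjoin K {y⁻¹}) t⁻¹) :
    chart ↥O t = chart ↥O y ∧ chart ↥O t⁻¹ = chart ↥O y⁻¹ :=
  ⟨le_antisymm
      (chart_le_of_mem (t_mem_chart_y hV₁ hπ ht₁ htr₁ hy₁ hytr₁ glue hy0 hy1 hI2))
      (chart_le_of_mem hy0),
    le_antisymm
      (chart_le_of_mem (tinv_mem_chart_yinv hV₁ hπ ht₁ htr₁ hy₁ hytr₁ glue hy0 hy1 hI2 hI4))
      (chart_le_of_mem hy1)⟩

end Pullback

end Fermat.Agent.T1B.NormModel99
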