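/-
Programme T1B (row 38 via S44), cell TORIC50, brick NORM-MODEL part B (helper99), file 6: the GENERIC two-level
statement (Gauss vocabulary, `K` an arbitrary field of characteristic `0` with a DVR `O`).

Good level `EM`, bad level `E` (subfields of `K((𝐪))`), two degeneracy maps `a, b : EM →ₐ[K] E`, the parameter
`s ∈ EM` (smooth charts `chart O s`, `chart O s⁻¹`), the nodal charts `chart O (a s)`, `chart O (a s)⁻¹`.

* `NormData O a b s` : the output —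
  `chart O (a s) = chart O (b s)`, `chart O (a s)⁻¹ = chart O (b s)⁻¹` (the nodal charts are also the integral
  closures of `O[(b s)^{±1}]`), `a, b` map the smooth charts into the nodal charts, and the nodal charts are FINITE
  PROJECTIVE modules over the smooth charts through `a` AND through `b` (`ChartFinite`, `ChartProjective` of
  `ChartProj.lean`, i.e. `Module.Finite` / `Module.Projective` for the algebra structure
  `(φ.codRestrict B _).toRingHom.toAlgebra`);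
* `NormData.ov*` : the overlap conditions (for `s`, `a s`, `b s`) in the shape of `NodalTwoChartModel.ov0/ov1`;
* **`normData_gauss`** : `NormData` from the level-`M'` packages for `s`, `s⁻¹`, the glue output of the bad level,
  `φ⁻¹(O_j) ⊆ Ov_{M'}` (four times), and the modular equation (`b s ∈ chart O (a s)`, `(b s)⁻¹ ∈ chart O (a s)⁻¹`,
  `a s` integral over `K[b s]`, `(a s)⁻¹` over `K[(b s)⁻¹]`).
-/
import Mathlib
import Fermat.Agent.T1B.NormModel99.GaussLevel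
import Fermat.Agent.T1B.NormModel99.BetaChart

set_option autoImplicit false
set_option linter.unusedSectionVars false
set_option linter.style.haveILetI false
set_option synthInstance.maxHeartbeats 400000
set_option maxHeartbeats 1000000

noncomputable section

open HahnSeries Polynomial IntermediateField

namespace Fermat.Agent.T1B.NormModel99

open Fermat.Agent.RED.PUR.GaussGen8 Fermat.Agent.RED.PUR.KtGauss8 Fermat.Agent.RED.PUR.G1Package8
  Fermat.Agent.RED.PUR.ChartGeneric22 Fermat.Agent.RED.ModelAsm4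
  Fermat.Agent.ES.RED.FibreSurj17 Fermat.Agent.ES.N35.CompData16
  Fermat.Agent.ES.N34.GaussEmb22 Fermat.Agent.ES.N34

variable {K : Type*} [Field K] [CharZero K] {O : ValuationSubring K} [IsDiscreteValuationRing ↥O]
  {π : ↥O} {EM E : IntermediateField K (LaurentSeries K)}

/-- **NORM-MODEL part B, the output** (generic form). -/
structure NormData (O : ValuationSubring K) {EM E : IntermediateField K (LaurentSeries K)}
    (a b : ↥EM →ₐ[K] ↥E) (s : ↥EM) : Prop where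
  s_ne : s ≠ 0
  /-- the nodal charts are the integral closures of `O[b s]`, `O[(b s)⁻¹]` as well -/
  chart0_eq : chart ↥O (a s) = chart ↥O (b s)
  chart1_eq : chart ↥O (a s)⁻¹ = chart ↥O (b s)⁻¹
  hα0 : ∀ x : ↥(chart ↥O s), chartAlg O a s x ∈ chart ↥O (a s)
  hβ0 : ∀ x : ↥(chart ↥O s), chartAlg O b s x ∈ chart ↥O (a s)
  hα1 : ∀ x : ↥(chart ↥O s⁻¹), chartAlg O a s⁻¹ x ∈ chart ↥O (a s)⁻¹
  hβ1 : ∀ x : ↥(chart ↥O s⁻¹), chartAlg O b s⁻¹ x ∈ chart ↥O (a s)⁻¹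
  finα0 : ChartFinite (chartAlg O a s) (chart ↥O (a s)) hα0
  projα0 : ChartProjective (chartAlg O a s) (chart ↥O (a s)) hα0
  finβ0 : ChartFinite (chartAlg O b s) (chart ↥O (a s)) hβ0
  projβ0 : ChartProjective (chartAlg O b s) (chart ↥O (a s)) hβ0
  finα1 : ChartFinite (chartAlg O a s⁻¹) (chart ↥O (a s)⁻¹) hα1
  projα1 : ChartProjective (chartAlg O a s⁻¹) (chart ↥O (a s)⁻¹) hα1
  finβ1 : ChartFinite (chartAlg O b s⁻¹) (chart ↥O (a s)⁻¹) hβ1
  projβ1 : ChartProjective (chartAlg O b s⁻¹) (chart ↥O (a s)⁻¹) hβ1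

namespace NormData

variable {a b : ↥EM →ₐ[K] ↥E} {s : ↥EM}

theorem a_ne (D : NormData O a b s) : a s ≠ 0 := (map_ne_zero a).mpr D.s_ne

theorem b_ne (D : NormData O a b s) : b s ≠ 0 := (map_ne_zero b).mpr D.s_ne

/-- overlap of the smooth charts, `chart O s⁻¹ ⊆ (chart O s)[1/s]`. -/
theorem ovM0 (D : NormData O a b s) :
    ∀ x ∈ chart ↥O s⁻¹, ∃ k : ℕ, s ^ k * x ∈ chart ↥O s :=
  fun _ hx => exists_pow_mul_mem_chart D.s_ne hx

/-- overlap of the smooth charts, `chart O s ⊆ (chart O s⁻¹)[s]`. -/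
theorem ovM1 (D : NormData O a b s) :
    ∀ x ∈ chart ↥O s, ∃ k : ℕ, s⁻¹ ^ k * x ∈ chart ↥O s⁻¹ := by
  intro x hx
  refine exists_pow_mul_mem_chart (R := ↥O) (inv_ne_zero D.s_ne) ?_
  rw [inv_inv]
  exact hx

/-- overlap of the nodal charts in the coordinate `a s`. -/
theorem ovα0 (D : NormData O a b s) :
    ∀ x ∈ chart ↥O (a s)⁻¹, ∃ k : ℕ, (a s) ^ k * x ∈ chart ↥O (a s) :=
  fun _ hx => exists_pow_mul_mem_chart D.a_ne hx

theorem ovα1 (D : NormData O a b s) :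
    ∀ x ∈ chart ↥O (a s), ∃ k : ℕ, (a s)⁻¹ ^ k * x ∈ chart ↥O (a s)⁻¹ := by
  intro x hx
  refine exists_pow_mul_mem_chart (R := ↥O) (inv_ne_zero D.a_ne) ?_
  rw [inv_inv]
  exact hx

/-- overlap of the nodal charts in the coordinate `b s`: `B0[1/(a s)] = B0[1/(b s)]`. -/
theorem ovβ0 (D : NormData O a b s) :
    ∀ x ∈ chart ↥O (a s)⁻¹, ∃ k : ℕ, (b s) ^ k * x ∈ chart ↥O (a s) := by
  intro x hx
  rw [D.chart1_eq] at hx
  rw [D.chart0_eq]
  exact exists_pow_mul_mem_chart D.b_ne hx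

theorem ovβ1 (D : NormData O a b s) :
    ∀ x ∈ chart ↥O (a s), ∃ k : ℕ, (b s)⁻¹ ^ k * x ∈ chart ↥O (a s)⁻¹ := by
  intro x hx
  rw [D.chart0_eq] at hx
  rw [D.chart1_eq]
  refine exists_pow_mul_mem_chart (R := ↥O) (inv_ne_zero D.b_ne) ?_
  rw [inv_inv]
  exact hx

theorem b_mem (D : NormData O a b s) : b s ∈ chart ↥O (a s) := by
  rw [D.chart0_eq]; exact self_mem_chart _

theorem b_inv_mem (D : NormData O a b s) : (b s)⁻¹ ∈ chart ↥O (a s)⁻¹ := by
  rw [D.chart1_eq]; exact self_mem_chart _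

end NormData

/-- **NORM-MODEL part B, generic two-level form.** -/
theorem normData_gauss (hπ : Irreducible π) (hEM : EM ≤ fracField O)
    -- the level-`M'` package, chart `0`
    (s : ↥EM) (hs : (s : LaurentSeries K) ∈ gaussRing O)
    (htrs : Transcendental (Res O) (gaussRed O ⟨(s : LaurentSeries K), hs⟩))
    {n0 : ℕ} (hn0 : relfinrank (Kt O ⟨(s : LaurentSeries K), hs⟩) EM ≠ 0)
    (hdeg0 : DegLe O EM ⟨(s : LaurentSeries K), hs⟩ n0)
    (hirr0 : Irr O EM ⟨(s : LaurentSeries K), hs⟩ n0)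
    (hsm0 : SmoothChart O EM π s)
    -- the level-`M'` package, chart `1`
    (hsi : ((s⁻¹ : ↥EM) : LaurentSeries K) ∈ gaussRing O)
    (htrsi : Transcendental (Res O) (gaussRed O ⟨((s⁻¹ : ↥EM) : LaurentSeries K), hsi⟩))
    {n1 : ℕ} (hn1 : relfinrank (Kt O ⟨((s⁻¹ : ↥EM) : LaurentSeries K), hsi⟩) EM ≠ 0)
    (hdeg1 : DegLe O EM ⟨((s⁻¹ : ↥EM) : LaurentSeries K), hsi⟩ n1)
    (hirr1 : Irr O EM ⟨((s⁻¹ : ↥EM) : LaurentSeries K), hsi⟩ n1)
    (hsm1 : SmoothChart O EM π s⁻¹)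
    -- the two degeneracy maps and the bad level
    (a b : ↥EM →ₐ[K] ↥E) (O1 O2 : ValuationSubring ↥E)
    (hO1 : IsGaussPullback O E.val O1)
    (glue : TwoGlue20.GlueOut K π (a s) O1 O2)
    (hca1 : ∀ z : ↥EM, a z ∈ O1 → z ∈ OvE O hπ EM hEM)
    (hca2 : ∀ z : ↥EM, a z ∈ O2 → z ∈ OvE O hπ EM hEM)
    (hcb1 : ∀ z : ↥EM, b z ∈ O1 → z ∈ OvE O hπ EM hEM)
    (hcb2 : ∀ z : ↥EM, b z ∈ O2 → z ∈ OvE O hπ EM hEM)
    (ht₁ : ((a s : ↥E) : LaurentSeries K) ∈ gaussRing O)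
    (htr₁ : Transcendental (Res O) (gaussRed O ⟨((a s : ↥E) : LaurentSeries K), ht₁⟩))
    (hn : relfinrank (Kt O ⟨((a s : ↥E) : LaurentSeries K), ht₁⟩) E ≠ 0)
    (hy₁ : ((b s : ↥E) : LaurentSeries K) ∈ gaussRing O)
    (hytr₁ : Transcendental (Res O) (gaussRed O ⟨((b s : ↥E) : LaurentSeries K), hy₁⟩))
    -- the modular equation
    (hy0 : b s ∈ chart ↥O (a s)) (hy1 : (b s)⁻¹ ∈ chart ↥O (a s)⁻¹)
    (hI2 : IsIntegral (Algebra.adjoin K {b s}) (a s))
    (hI4 : IsIntegral (Algebra.adjoin K {(b s)⁻¹}) (a s)⁻¹) :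
    NormData O a b s := by
  have hsc : IsScalarTower ↥O K ↥E := Fermat.Agent.RED.NumInst4.isScalarTower_OE O E
  have hfd : FiniteDimensional ↥(IntermediateField.adjoin K {a s}) ↥E :=
    finiteDimensional_adjoin (a s) hn
  -- the `b`-charts
  have htmem : a s ∈ chart ↥O (b s) :=
    t_mem_chart_y (ι₁ := E.val) hO1 hπ ht₁ htr₁ hy₁ hytr₁ glue hy0 hy1 hI2
  have htimem : (a s)⁻¹ ∈ chart ↥O (b s)⁻¹ :=
    tinv_mem_chart_yinv (ι₁ := E.val) hO1 hπ ht₁ htr₁ hy₁ hytr₁ glue hy0 hy1 hI2 hI4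
  have hceq := chart_eq (ι₁ := E.val) hO1 hπ ht₁ htr₁ hy₁ hytr₁ glue hy0 hy1 hI2 hI4
  -- generators of the nodal charts
  have hgen0 := chart_generators hπ (a s) ht₁ htr₁ hn
  have hgen1 := chart_generators_inv hπ (a s) ht₁ htr₁ hn
  -- inverses
  have hinvα : a s⁻¹ = (a s)⁻¹ := map_inv₀ a s
  have hinvβ : b s⁻¹ = (b s)⁻¹ := map_inv₀ b s
  -- `φ (chart) ⊆ chart`
  have hα0 : ∀ x : ↥(chart ↥O s), chartAlg O a s x ∈ chart ↥O (a s) :=
    hφB_gauss s a (a s) (self_mem_chart (a s))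
  have hβ0 : ∀ x : ↥(chart ↥O s), chartAlg O b s x ∈ chart ↥O (a s) :=
    hφB_gauss s b (a s) hy0
  have hα1 : ∀ x : ↥(chart ↥O s⁻¹), chartAlg O a s⁻¹ x ∈ chart ↥O (a s)⁻¹ :=
    hφB_gauss s⁻¹ a (a s)⁻¹ (by rw [hinvα]; exact self_mem_chart _)
  have hβ1 : ∀ x : ↥(chart ↥O s⁻¹), chartAlg O b s⁻¹ x ∈ chart ↥O (a s)⁻¹ :=
    hφB_gauss s⁻¹ b (a s)⁻¹ (by rw [hinvβ]; exact hy1)
  -- integrality of the coordinate
  have hiα0 : IsIntegral (Algebra.adjoin ↥O {a s}) (a s) :=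
    mem_chart_iff.mp (self_mem_chart (a s))
  have hiβ0 : IsIntegral (Algebra.adjoin ↥O {b s}) (a s) := mem_chart_iff.mp htmem
  have hiα1 : IsIntegral (Algebra.adjoin ↥O {a s⁻¹}) (a s)⁻¹ := by
    rw [hinvα]; exact mem_chart_iff.mp (self_mem_chart _)
  have hiβ1 : IsIntegral (Algebra.adjoin ↥O {b s⁻¹}) (a s)⁻¹ := by
    rw [hinvβ]; exact mem_chart_iff.mp htimem
  -- the four finite projective statements
  have Aα0 := finite_projective_gauss hπ hEM s hs htrs hn0 hdeg0 hirr0 hsm0 a (a s) hgen0 hiα0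
    O1 O2 glue.le_O1_0 glue.le_O2_0 glue.unif1 glue.unif2 glue.sat0 hca1 hca2 hα0
  have Aβ0 := finite_projective_gauss hπ hEM s hs htrs hn0 hdeg0 hirr0 hsm0 b (a s) hgen0 hiβ0
    O1 O2 glue.le_O1_0 glue.le_O2_0 glue.unif1 glue.unif2 glue.sat0 hcb1 hcb2 hβ0
  have Aα1 := finite_projective_gauss hπ hEM s⁻¹ hsi htrsi hn1 hdeg1 hirr1 hsm1 a (a s)⁻¹ hgen1
    hiα1 O1 O2 glue.le_O1_1 glue.le_O2_1 glue.unif1 glue.unif2 glue.sat1 hca1 hca2 hα1
  have Aβ1 := finite_projective_gauss hπ hEM s⁻¹ hsi htrsi hn1 hdeg1 hirr1 hsm1 b (a s)⁻¹ hgen1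
    hiβ1 O1 O2 glue.le_O1_1 glue.le_O2_1 glue.unif1 glue.unif2 glue.sat1 hcb1 hcb2 hβ1
  have hs0 : s ≠ 0 := by
    intro h0
    have htrK : Transcendental K s :=
      transcendental_of_coe s (transcendental_t (tG := ⟨(s : LaurentSeries K), hs⟩) hπ htrs)
    apply htrK
    rw [h0]
    exact isAlgebraic_zero
  exact
    { s_ne := hs0
      chart0_eq := hceq.1
      chart1_eq := hceq.2
      hα0 := hα0
      hβ0 := hβ0
      hα1 := hα1
      hβ1 := hβ1
      finα0 := Aα0.1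
      projα0 := Aα0.2
      finβ0 := Aβ0.1
      projβ0 := Aβ0.2
      finα1 := Aα1.1
      projα1 := Aα1.2
      finβ1 := Aβ1.1
      projβ1 := Aβ1.2 }

end Fermat.Agent.T1B.NormModel99
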