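/-
Programme T1B (row 38 via S44), cell TORIC50, brick NORM-MODEL part B (helper99), file 7: the INSTANCE of
`TwoLevel.normData_gauss` at the `ModelDefs9` data (one number field `K`, items form).

`R = AK A K`, good level `F_M = FK M' K` with the smooth charts `B0M = chart R tM`, `B1M = chart R tM⁻¹`, bad level
`F = FK (M' q) K` with the nodal charts `B0 = chart R tN`, `B1 = chart R tN⁻¹` (`tN = alpha tM` by definition),
degeneracy maps `alpha, beta`, `yN = beta tM`.

* **`normData_of_items`** : `NormData (AK A K) (alpha K M' q) (beta K M' q) (tM ht)` from `LevelItems`, `GlueItems`,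
  `ModEqItems` (Program N's items at `K`) and the modular equation over `K`
  (`ModEq23.isIntegral_tq / isIntegral_inv_tq`): the nodal charts `B_j` are finite projective over the smooth charts
  `B_jM` through `alpha` and through `beta`, and `B0 = chart R yN`, `B1 = chart R yN⁻¹`;
* `B0_eq_chart_yN`, `B1_eq_chart_yN_inv` : the chart equalities in the `ModelDefs9` names.
-/
import Mathlib
import Fermat.Agent.ES.N34.PrinItems12
import Fermat.Agent.ES.N34.ModEq23
import Fermat.Agent.ES.N34.YMem11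
import Fermat.Agent.ES.N35.PiMaps26
import Fermat.Agent.T1B.NormModel99.TwoLevel

set_option autoImplicit false
set_option synthInstance.maxHeartbeats 400000
set_option linter.unusedSectionVars false
set_option linter.style.haveILetI false

noncomputable section

open HahnSeries ModularCurve IntermediateField Polynomial

namespace Fermat.Agent.T1B.NormModel99

open Fermat.Agent.RED.Interface4 Fermat.Agent.RED.PUR.GaussGen8 Fermat.Agent.RED.PUR.KtGauss8
  Fermat.Agent.RED.PUR.G1Package8 Fermat.Agent.RED.BASE.EtaQuot12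
  Fermat.Agent.RED.PUR.ChartGeneric22
  Fermat.Agent.ES.N34.ModelDefs9 Fermat.Agent.ES.N34.ModelN4
  Fermat.Agent.ES.N34.LevelM20 Fermat.Agent.ES.N34.PrinItems12
  Fermat.Agent.ES.N35.CompData16

variable {n e M' : ℕ} [NeZero n] [NeZero M'] {q : ℕ} [NeZero q] {A : ValuationSubring Qbar}
  {K : IntermediateField ℚ Qbar}

set_option maxHeartbeats 4000000 in
/-- **NORM-MODEL part B at one `K`, items form.** -/
theorem normData_of_items (hb : Fermat.Agent.RED.BASE.Hauptmodul12.BaseHyp n e)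
    (hq : q.Prime) (hqn : ¬ q ∣ n) (hqM : ¬ q ∣ M') (hA : A.LiesOverPrime q)
    [FiniteDimensional ℚ K]
    (hL : LevelItems n e M' A K) (hG : GlueItems n e q M' A K) (hS2 : ModEqItems n e q M' A K)
    (ht : tq (↥K) n e ∈ FK M' K) :
    NormData (AK A K) (alpha K M' q) (beta K M' q) (tM ht) := by
  have hdvr : IsDiscreteValuationRing ↥(AK A K) :=
    Fermat.Agent.RED.DESC.NumberFieldDVR27.isDiscreteValuationRing_AK A K hq.ne_zero hA
  obtain ⟨π, hirr⟩ := IsDiscreteValuationRing.exists_irreducible ↥(AK A K)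
  have hπ : IsUnif (AK A K) π := isUnif_of_irreducible (AK A K) hirr
  have : NeZero (M' * q) := ⟨Nat.mul_ne_zero (NeZero.ne M') (NeZero.ne q)⟩
  have hE : FK (M' * q) K ≤ fracField (AK A K) :=
    Fermat.Agent.RED.PUR.GaussBridge10.FK_le_fracField A K (M' * q)
  have : Fact q.Prime := ⟨hq⟩
  have : CharP (Res (AK A K)) q :=
    Fermat.Agent.RED.DESC.NumberFieldDVR27.charP_residueField_AK A K hq hA
  obtain ⟨_, hjt, hLM⟩ := hL
  obtain ⟨L0, L1⟩ := hLM π hirr
  have L0' : LevelM (AK A K) (FK M' K) π (tM ht) := L0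
  have L1' : LevelM (AK A K) (FK M' K) π (tM ht)⁻¹ := L1
  obtain ⟨n0, hd0, hi0⟩ := L0'.deg_irr
  obtain ⟨n1, hd1, hi1⟩ := L1'.deg_irr
  have glue := hG ht hE π hπ
  obtain ⟨hy0, hy1⟩ := hS2 ht
  -- the isometry
  have hiso : ∀ x : FK M' K, (x : LaurentSeries ↥K) ∈ gaussRing (AK A K) ↔
      ((Fermat.Agent.ES.N34.FrickeFK8.frickeFK M' K x : FK M' K) : LaurentSeries ↥K) ∈
        gaussRing (AK A K) :=
    fun x => Fermat.Agent.ES.N34.IsoM25.isoM A K M' q hirr hqM x
  -- `φ⁻¹(O_j) ⊆ Ov_{M'}`, all four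
  have hca1 : ∀ z : ↥(FK M' K), alpha K M' q z ∈ O1 M' q hπ hE →
      z ∈ OvE (AK A K) hirr (FK M' K) L0'.hEM := fun z hz =>
    (mem_OvE_iff (AK A K) hirr (FK M' K) L0'.hEM z).mpr
      ((Fermat.Agent.ES.N34.BranchInt5.alpha_mem_O1_iff M' q hπ hE z).mp hz)
  have hca2 : ∀ z : ↥(FK M' K), alpha K M' q z ∈ O2 M' q hπ hE →
      z ∈ OvE (AK A K) hirr (FK M' K) L0'.hEM := fun z hz =>
    (mem_OvE_iff (AK A K) hirr (FK M' K) L0'.hEM z).mpr
      ((Fermat.Agent.ES.N35.PiMaps26.alpha_mem_O2_iff M' q hπ hE hiso z).mp hz)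
  have hcb1 : ∀ z : ↥(FK M' K), beta K M' q z ∈ O1 M' q hπ hE →
      z ∈ OvE (AK A K) hirr (FK M' K) L0'.hEM := fun z hz =>
    (mem_OvE_iff (AK A K) hirr (FK M' K) L0'.hEM z).mpr
      ((Fermat.Agent.ES.N35.PiMaps26.beta_mem_O1_iff M' q hπ hE z).mp hz)
  have hcb2 : ∀ z : ↥(FK M' K), beta K M' q z ∈ O2 M' q hπ hE →
      z ∈ OvE (AK A K) hirr (FK M' K) L0'.hEM := fun z hz =>
    (mem_OvE_iff (AK A K) hirr (FK M' K) L0'.hEM z).mpr
      ((Fermat.Agent.ES.N34.BranchInt5.beta_mem_O2_iff M' q hπ hE hiso z).mp hz)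
  -- `tN` in the Gauss ring
  have ht₁ : ((tN q ht : FK (M' * q) K) : LaurentSeries K) ∈ gaussRing (AK A K) :=
    Fermat.Agent.ES.N34.ModelGlue22.tN_mem_gaussRing (A := A) M' q ht
  have heq := Fermat.Agent.ES.N34.ModelGlue22.tN_eq_tG (A := A) M' q ht ht₁
  have htr₁ : Transcendental (Res (AK A K))
      (gaussRed (AK A K) ⟨((tN q ht : FK (M' * q) K) : LaurentSeries K), ht₁⟩) := by
    rw [heq]
    exact Fermat.Agent.RED.BASE.TBridge15.transcendental_gaussRed_tG (AK A K) n e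
  have hjt' : jqModC (↥K) ∈
      Kt (AK A K) ⟨((tN q ht : FK (M' * q) K) : LaurentSeries K), ht₁⟩ := by
    rw [heq]; exact hjt
  have hn : relfinrank (Kt (AK A K) ⟨((tN q ht : FK (M' * q) K) : LaurentSeries K), ht₁⟩)
      (FK (M' * q) K) ≠ 0 :=
    Fermat.Agent.RED.ModelMain4.relfinrank_ne_zero (AK A K) (M' * q) _ (tN q ht).2 hjt'
  -- `yN` in the Gauss ring
  have hy₁ : ((yN q ht : FK (M' * q) K) : LaurentSeries K) ∈ gaussRing (AK A K) :=
    Fermat.Agent.ES.N34.YMem11.qExpand_tq_mem (AK A K) n e q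
  have hyeq : (⟨((yN q ht : FK (M' * q) K) : LaurentSeries K), hy₁⟩ : ↥(gaussRing (AK A K))) =
      Fermat.Agent.ES.N34.YMem11.vtG (AK A K) n e q :=
    Subtype.ext (Fermat.Agent.ES.N34.YMem11.coe_vtG (AK A K) n e q).symm
  have hytr₁ : Transcendental (Res (AK A K))
      (gaussRed (AK A K) ⟨((yN q ht : FK (M' * q) K) : LaurentSeries K), hy₁⟩) := by
    rw [hyeq, Fermat.Agent.ES.N34.YMem11.gaussRed_vtG]
    exact Fermat.Agent.ES.N34.GaussVTwoFam25.transcendental_qExpand q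
      (Fermat.Agent.RED.BASE.TBridge15.transcendental_tq (Res (AK A K)) n e)
  -- the modular equation over `K`, both directions
  have hI2 : IsIntegral (Algebra.adjoin ↥K {yN q ht}) (tN q ht) :=
    Fermat.Agent.ES.N34.ModEq23.isIntegral_of_coe_eq K _ (coe_yN q ht) (coe_tN q ht)
      (Fermat.Agent.ES.N34.ModEq23.isIntegral_tq K q hb hq hqn)
  have hI4 : IsIntegral (Algebra.adjoin ↥K {(yN q ht)⁻¹}) (tN q ht)⁻¹ := by
    refine Fermat.Agent.ES.N34.ModEq23.isIntegral_of_coe_eq K _ ?_ ?_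
      (Fermat.Agent.ES.N34.ModEq23.isIntegral_inv_tq K q hb hq hqn)
    · rw [IntermediateField.coe_inv, coe_yN]
    · rw [IntermediateField.coe_inv, coe_tN]
  have hO1 := Fermat.Agent.ES.N34.ModelGlue22.isGaussPullback_O1 (A := A) (K := K) M' q hπ hE
  exact normData_gauss hirr L0'.hEM (tM ht) L0'.htM L0'.htrM L0'.hn' hd0 hi0 L0'.hsm
    L1'.htM L1'.htrM L1'.hn' hd1 hi1 L1'.hsm (alpha K M' q) (beta K M' q)
    (O1 M' q hπ hE) (O2 M' q hπ hE) hO1 glue hca1 hca2 hcb1 hcb2 ht₁ htr₁ hn hy₁ hytr₁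
    hy0 hy1 hI2 hI4

/-- `B0 = chart R yN`, in the `ModelDefs9` names. -/
theorem B0_eq_chart_yN {ht : tq (↥K) n e ∈ FK M' K}
    (D : NormData (AK A K) (alpha K M' q) (beta K M' q) (tM ht)) :
    B0 A q ht = chart ↥(AK A K) (yN q ht) := D.chart0_eq

/-- `B1 = chart R yN⁻¹`, in the `ModelDefs9` names. -/
theorem B1_eq_chart_yN_inv {ht : tq (↥K) n e ∈ FK M' K}
    (D : NormData (AK A K) (alpha K M' q) (beta K M' q) (tM ht)) :
    B1 A q ht = chart ↥(AK A K) (yN q ht)⁻¹ := D.chart1_eq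

end Fermat.Agent.T1B.NormModel99
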