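/-
Programme T1B (row 38 via S44), cell TORIC50, brick NORM-MODEL part B (helper99), file 9: **the two finite projective
morphisms of two-chart data** `Mα`, `Mβ` (helper11's `Toric11.ChartMor`, built by `Toric11.chartMorOfSub`) from
`NormData`.

* generic (`O` a DVR of `K`, `a b : EM →ₐ[K] E`, `s : EM`, `D : NormData O a b s`):
  `chartMorAlpha D`, `chartMorBeta D : ChartMor ↥O ↥(chart O (a s)) ↥(chart O (a s)⁻¹) ↥(chart O (a s) ⊔ chart O (a s)⁻¹)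
    ↥(chart O s) ↥(chart O s⁻¹) ↥(chart O s ⊔ chart O s⁻¹)` (algebra structures `Coh60.algebra0/1`), with
  `α_j = a` resp. `b` on the charts, `t0 = s`, `t1 = s⁻¹`;
* at the `ModelDefs9` data: `Malpha D`, `Mbeta D : ChartMor ↥(AK A K) ↥(B0 A q ht) ↥(B1 A q ht) ↥(B0 A q ht ⊔ B1 A q ht)
    ↥(B0M A ht) ↥(B1M A ht) ↥(B0M A ht ⊔ B1M A ht)` for `D : NormData (AK A K) (alpha K M' q) (beta K M' q) (tM ht)`
  (`ModelAt.normData_at / normData_four_at / normData_nine_at`).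
-/
import Mathlib
import Fermat.Agent.T1B.Toric11.ChartMorSub
import Fermat.Agent.T1B.NormModel99.Model

set_option autoImplicit false
set_option synthInstance.maxHeartbeats 400000
set_option maxHeartbeats 1000000
set_option linter.unusedSectionVars false
set_option linter.style.haveILetI false

noncomputable section

open HahnSeries IntermediateField

namespace Fermat.Agent.T1B.NormModel99

open Fermat.Agent.RED.PUR.GaussGen8 Fermat.Agent.RED.PUR.ChartGeneric22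
  Fermat.Agent.ES.N35.CompData16 Fermat.Agent.ES.N34.CompGauss16
  Fermat.Agent.T1.Coh60 Fermat.Agent.T1B.Toric11

universe u

section Generic

variable {K : Type u} [Field K] [CharZero K] {O : ValuationSubring K} [IsDiscreteValuationRing ↥O]
  {EM E : IntermediateField K (LaurentSeries K)} {a b : ↥EM →ₐ[K] ↥E} {s : ↥EM}

/-- **`Mα`**: the finite projective morphism of two-chart data given by `a` (generic form). -/
def chartMorAlpha (D : NormData O a b s) :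
    letI := algebra0 (chart ↥O (a s)) (chart ↥O (a s)⁻¹)
    letI := algebra1 (chart ↥O (a s)) (chart ↥O (a s)⁻¹)
    haveI := isScalarTower0 (chart ↥O (a s)) (chart ↥O (a s)⁻¹)
    haveI := isScalarTower1 (chart ↥O (a s)) (chart ↥O (a s)⁻¹)
    letI := algebra0 (chart ↥O s) (chart ↥O s⁻¹)
    letI := algebra1 (chart ↥O s) (chart ↥O s⁻¹)
    haveI := isScalarTower0 (chart ↥O s) (chart ↥O s⁻¹)
    haveI := isScalarTower1 (chart ↥O s) (chart ↥O s⁻¹)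
    ChartMor ↥O ↥(chart ↥O (a s)) ↥(chart ↥O (a s)⁻¹) ↥(chart ↥O (a s) ⊔ chart ↥O (a s)⁻¹)
      ↥(chart ↥O s) ↥(chart ↥O s⁻¹) ↥(chart ↥O s ⊔ chart ↥O s⁻¹) :=
  haveI : IsScalarTower ↥O K ↥E := Fermat.Agent.RED.NumInst4.isScalarTower_OE O E
  chartMorOfSub (restrictO (O := O) a) (chart ↥O s) (chart ↥O s⁻¹) (chart ↥O (a s))
    (chart ↥O (a s)⁻¹) D.hα0 D.hα1 s D.s_ne (self_mem_chart s) (self_mem_chart s⁻¹)
    D.ovM0 D.ovM1 D.ovα0 D.ovα1 D.finα0 D.projα0 D.finα1 D.projα1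

/-- **`Mβ`**: the finite projective morphism of two-chart data given by `b` (generic form). -/
def chartMorBeta (D : NormData O a b s) :
    letI := algebra0 (chart ↥O (a s)) (chart ↥O (a s)⁻¹)
    letI := algebra1 (chart ↥O (a s)) (chart ↥O (a s)⁻¹)
    haveI := isScalarTower0 (chart ↥O (a s)) (chart ↥O (a s)⁻¹)
    haveI := isScalarTower1 (chart ↥O (a s)) (chart ↥O (a s)⁻¹)
    letI := algebra0 (chart ↥O s) (chart ↥O s⁻¹)
    letI := algebra1 (chart ↥O s) (chart ↥O s⁻¹)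
    haveI := isScalarTower0 (chart ↥O s) (chart ↥O s⁻¹)
    haveI := isScalarTower1 (chart ↥O s) (chart ↥O s⁻¹)
    ChartMor ↥O ↥(chart ↥O (a s)) ↥(chart ↥O (a s)⁻¹) ↥(chart ↥O (a s) ⊔ chart ↥O (a s)⁻¹)
      ↥(chart ↥O s) ↥(chart ↥O s⁻¹) ↥(chart ↥O s ⊔ chart ↥O s⁻¹) :=
  haveI : IsScalarTower ↥O K ↥E := Fermat.Agent.RED.NumInst4.isScalarTower_OE O E
  chartMorOfSub (restrictO (O := O) b) (chart ↥O s) (chart ↥O s⁻¹) (chart ↥O (a s))
    (chart ↥O (a s)⁻¹) D.hβ0 D.hβ1 s D.s_ne (self_mem_chart s) (self_mem_chart s⁻¹)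
    D.ovM0 D.ovM1 D.ovβ0 D.ovβ1 D.finβ0 D.projβ0 D.finβ1 D.projβ1

section Coe

attribute [local instance] algebra0 algebra1 isScalarTower0 isScalarTower1

variable (D : NormData O a b s)

@[simp] theorem chartMorAlpha_α0_coe (x : ↥(chart ↥O s)) :
    (((chartMorAlpha D).α0 x : ↥(chart ↥O (a s))) : ↥E) = a (x : ↥EM) := rfl

@[simp] theorem chartMorAlpha_α1_coe (x : ↥(chart ↥O s⁻¹)) :
    (((chartMorAlpha D).α1 x : ↥(chart ↥O (a s)⁻¹)) : ↥E) = a (x : ↥EM) := rfl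

@[simp] theorem chartMorAlpha_α01_coe (x : ↥(chart ↥O s ⊔ chart ↥O s⁻¹)) :
    (((chartMorAlpha D).α01 x : ↥(chart ↥O (a s) ⊔ chart ↥O (a s)⁻¹)) : ↥E) = a (x : ↥EM) := rfl

@[simp] theorem chartMorAlpha_t0_coe : (((chartMorAlpha D).t0 : ↥(chart ↥O s)) : ↥EM) = s := rfl

@[simp] theorem chartMorAlpha_t1_coe : (((chartMorAlpha D).t1 : ↥(chart ↥O s⁻¹)) : ↥EM) = s⁻¹ := rfl

@[simp] theorem chartMorBeta_α0_coe (x : ↥(chart ↥O s)) :
    (((chartMorBeta D).α0 x : ↥(chart ↥O (a s))) : ↥E) = b (x : ↥EM) := rfl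

@[simp] theorem chartMorBeta_α1_coe (x : ↥(chart ↥O s⁻¹)) :
    (((chartMorBeta D).α1 x : ↥(chart ↥O (a s)⁻¹)) : ↥E) = b (x : ↥EM) := rfl

@[simp] theorem chartMorBeta_α01_coe (x : ↥(chart ↥O s ⊔ chart ↥O s⁻¹)) :
    (((chartMorBeta D).α01 x : ↥(chart ↥O (a s) ⊔ chart ↥O (a s)⁻¹)) : ↥E) = b (x : ↥EM) := rfl

@[simp] theorem chartMorBeta_t0_coe : (((chartMorBeta D).t0 : ↥(chart ↥O s)) : ↥EM) = s := rfl

@[simp] theorem chartMorBeta_t1_coe : (((chartMorBeta D).t1 : ↥(chart ↥O s⁻¹)) : ↥EM) = s⁻¹ := rfl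

end Coe

end Generic

section Model

open Fermat.Agent.RED.Interface4 Fermat.Agent.RED.BASE.EtaQuot12 Fermat.Agent.ES.N34.ModelDefs9

variable {n e M' : ℕ} [NeZero n] [NeZero M'] {q : ℕ} [NeZero q] {A : ValuationSubring Qbar}
  {K : IntermediateField ℚ Qbar} {ht : tq (↥K) n e ∈ FK M' K}

/-- **`Mα` at the `ModelDefs9` data**: `alpha : (B0M, B1M, B0M ⊔ B1M) → (B0, B1, B0 ⊔ B1)`. -/
def Malpha [IsDiscreteValuationRing ↥(AK A K)]
    (D : NormData (AK A K) (alpha K M' q) (beta K M' q) (tM ht)) :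
    letI := algebra0 (B0 A q ht) (B1 A q ht)
    letI := algebra1 (B0 A q ht) (B1 A q ht)
    haveI := isScalarTower0 (B0 A q ht) (B1 A q ht)
    haveI := isScalarTower1 (B0 A q ht) (B1 A q ht)
    letI := algebra0 (B0M A ht) (B1M A ht)
    letI := algebra1 (B0M A ht) (B1M A ht)
    haveI := isScalarTower0 (B0M A ht) (B1M A ht)
    haveI := isScalarTower1 (B0M A ht) (B1M A ht)
    ChartMor ↥(AK A K) ↥(B0 A q ht) ↥(B1 A q ht) ↥(B0 A q ht ⊔ B1 A q ht)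
      ↥(B0M A ht) ↥(B1M A ht) ↥(B0M A ht ⊔ B1M A ht) :=
  chartMorAlpha D

/-- **`Mβ` at the `ModelDefs9` data**: `beta : (B0M, B1M, B0M ⊔ B1M) → (B0, B1, B0 ⊔ B1)`. -/
def Mbeta [IsDiscreteValuationRing ↥(AK A K)]
    (D : NormData (AK A K) (alpha K M' q) (beta K M' q) (tM ht)) :
    letI := algebra0 (B0 A q ht) (B1 A q ht)
    letI := algebra1 (B0 A q ht) (B1 A q ht)
    haveI := isScalarTower0 (B0 A q ht) (B1 A q ht)
    haveI := isScalarTower1 (B0 A q ht) (B1 A q ht)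
    letI := algebra0 (B0M A ht) (B1M A ht)
    letI := algebra1 (B0M A ht) (B1M A ht)
    haveI := isScalarTower0 (B0M A ht) (B1M A ht)
    haveI := isScalarTower1 (B0M A ht) (B1M A ht)
    ChartMor ↥(AK A K) ↥(B0 A q ht) ↥(B1 A q ht) ↥(B0 A q ht ⊔ B1 A q ht)
      ↥(B0M A ht) ↥(B1M A ht) ↥(B0M A ht ⊔ B1M A ht) :=
  chartMorBeta D

section Coe

attribute [local instance] algebra0 algebra1 isScalarTower0 isScalarTower1

variable [IsDiscreteValuationRing ↥(AK A K)]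
  (D : NormData (AK A K) (alpha K M' q) (beta K M' q) (tM ht))

@[simp] theorem Malpha_α0_coe (x : ↥(B0M A ht)) :
    (((Malpha D).α0 x : ↥(B0 A q ht)) : ↥(FK (M' * q) K)) = alpha K M' q (x : ↥(FK M' K)) := rfl

@[simp] theorem Malpha_α1_coe (x : ↥(B1M A ht)) :
    (((Malpha D).α1 x : ↥(B1 A q ht)) : ↥(FK (M' * q) K)) = alpha K M' q (x : ↥(FK M' K)) := rfl

@[simp] theorem Malpha_α01_coe (x : ↥(B0M A ht ⊔ B1M A ht)) :
    (((Malpha D).α01 x : ↥(B0 A q ht ⊔ B1 A q ht)) : ↥(FK (M' * q) K)) =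
      alpha K M' q (x : ↥(FK M' K)) := rfl

@[simp] theorem Malpha_t0_coe : (((Malpha D).t0 : ↥(B0M A ht)) : ↥(FK M' K)) = tM ht := rfl

@[simp] theorem Malpha_t1_coe : (((Malpha D).t1 : ↥(B1M A ht)) : ↥(FK M' K)) = (tM ht)⁻¹ := rfl

@[simp] theorem Mbeta_α0_coe (x : ↥(B0M A ht)) :
    (((Mbeta D).α0 x : ↥(B0 A q ht)) : ↥(FK (M' * q) K)) = beta K M' q (x : ↥(FK M' K)) := rfl

@[simp] theorem Mbeta_α1_coe (x : ↥(B1M A ht)) :
    (((Mbeta D).α1 x : ↥(B1 A q ht)) : ↥(FK (M' * q) K)) = beta K M' q (x : ↥(FK M' K)) := rfl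

@[simp] theorem Mbeta_α01_coe (x : ↥(B0M A ht ⊔ B1M A ht)) :
    (((Mbeta D).α01 x : ↥(B0 A q ht ⊔ B1 A q ht)) : ↥(FK (M' * q) K)) =
      beta K M' q (x : ↥(FK M' K)) := rfl

@[simp] theorem Mbeta_t0_coe : (((Mbeta D).t0 : ↥(B0M A ht)) : ↥(FK M' K)) = tM ht := rfl

@[simp] theorem Mbeta_t1_coe : (((Mbeta D).t1 : ↥(B1M A ht)) : ↥(FK M' K)) = (tM ht)⁻¹ := rfl

end Coe

end Model

end Fermat.Agent.T1B.NormModel99
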