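/-
Programme T1B (row 38 via S44), cell TORIC50, brick NORM-MODEL part B (helper99), file 8: **`NormData` AT ONE NUMBER
FIELD `K ∋ ζ_{M'}`** (no `∃ K₀`, no normality, no Frobenius inverse, `K` may be ramified at `q`).

The items of `Model.normData_of_items` from Program P's per-`K` suppliers: `ModelQAt4.chartItems_at`,
`ModelQAt4.glueItems_at`, `ItemsAd6.modEqItems_at`, `LevelMAt4.levelItems_at`.

* `normData_at` ; `normData_four_at` (`q` odd, `4 ∣ M'`, Hauptmodul `tq · 4 8`) ; `normData_nine_at` (`q = 2`,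
  `9 ∣ M'`, Hauptmodul `tq · 9 3`):
  `NormData (AK A K) (alpha K M' q) (beta K M' q) (tM ht)` — the nodal charts `B0 A q ht`, `B1 A q ht` of the level
  `M' q` are finite projective over the smooth charts `B0M A ht`, `B1M A ht` of the level `M'` through `alpha` and
  through `beta`, and they are the integral closures of `R[yN^{±1}]` as well.
-/
import Mathlib
import Fermat.Agent.ES.P36.ModelQAt4
import Fermat.Agent.T1B.NormModel99.Model

set_option autoImplicit false
set_option synthInstance.maxHeartbeats 400000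
set_option linter.unusedSectionVars false

noncomputable section

open HahnSeries ModularCurve IntermediateField
open scoped MatrixGroups

namespace Fermat.Agent.T1B.NormModel99

open Fermat.Agent.RED.Interface4 Fermat.Agent.RED.BASE.EtaQuot12 Fermat.Agent.X0
  Fermat.Agent.ES.N34.ModelDefs9 Fermat.Agent.ES.N34.ModelN4
  Fermat.Agent.ES.P36.ModelQAt4

variable {n e M' : ℕ} [NeZero n] [NeZero M'] {q : ℕ} [NeZero q] {A : ValuationSubring Qbar}
  {K : IntermediateField ℚ Qbar}

/-- **NORM-MODEL part B at one `K ∋ ζ_{M'}`.** -/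
theorem normData_at (hb : Fermat.Agent.RED.BASE.Hauptmodul12.BaseHyp n e) (hnM : n ∣ M')
    (hq : q.Prime) (hqn : ¬ q ∣ n) (hqM : ¬ q ∣ M') (hA : A.LiesOverPrime q)
    (cv : SL(2, ℤ) → Option Kbar)
    (hcv : Fermat.Agent.RED.BASE.MainCusp12.CuspExports n e M' cv)
    [FiniteDimensional ℚ K] (hζ : zetaK M' ∈ K) (ht : tq (↥K) n e ∈ FK M' K) :
    NormData (AK A K) (alpha K M' q) (beta K M' q) (tM ht) := by
  have hB := Fermat.Agent.RED.BASE.Main12.baseExports hb M' hnM
  have h1 : ChartItems n e q M' A K := chartItems_at hq hA hB.mem hB.genBase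
  have h2 : GlueItems n e q M' A K := glueItems_at hq hqM hA hB.genBase
  have h3 : ModEqItems n e q M' A K :=
    Fermat.Agent.ES.N34.ItemsAd6.modEqItems_at hb hq hqn hqM hA h1 h2
  have hL := Fermat.Agent.ES.P36.LevelMAt4.levelItems_at (A := A) (K := K) hb hnM hq hqM hA cv hcv hζ
  exact normData_of_items hb hq hqn hqM hA hL h2 h3 ht

/-- `q` odd, `4 ∣ M'`, Hauptmodul `tq · 4 8`. -/
theorem normData_four_at (hq : q.Prime) (hq2 : q ≠ 2) (hqM : ¬ q ∣ M') (hM : 4 ∣ M')
    (hA : A.LiesOverPrime q) [FiniteDimensional ℚ K] (hζ : zetaK M' ∈ K)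
    (ht : tq (↥K) 4 8 ∈ FK M' K) :
    NormData (AK A K) (alpha K M' q) (beta K M' q) (tM ht) := by
  have hqn : ¬ q ∣ 4 := by
    intro h
    have h' : q ∣ 2 := hq.dvd_of_dvd_pow (show q ∣ 2 ^ 2 by simpa using h)
    exact hq2 ((Nat.prime_dvd_prime_iff_eq hq Nat.prime_two).1 h')
  exact normData_at Fermat.Agent.RED.BASE.Hauptmodul12.baseHyp_four hM hq hqn hqM hA _
    (Fermat.Agent.RED.BASE.MainCusp12.base_four M' hM).2 hζ ht

/-- `q = 2`, `9 ∣ M'`, Hauptmodul `tq · 9 3`. -/
theorem normData_nine_at [NeZero 2] (hqM : ¬ 2 ∣ M') (hM : 9 ∣ M')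
    (hA : A.LiesOverPrime 2) [FiniteDimensional ℚ K] (hζ : zetaK M' ∈ K)
    (ht : tq (↥K) 9 3 ∈ FK M' K) :
    NormData (AK A K) (alpha K M' 2) (beta K M' 2) (tM ht) :=
  normData_at Fermat.Agent.RED.BASE.Hauptmodul12.baseHyp_nine hM Nat.prime_two (by decide) hqM hA _
    (Fermat.Agent.RED.BASE.MainCusp12.base_nine M' hM).2 hζ ht

end Fermat.Agent.T1B.NormModel99
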