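/-
Programme T1B (row 38 via S44), cell TORIC50, brick NORM-MODEL part B (helper99), file 4: the GAUSS level.

`O` a DVR of `K` (char 0), `EM, E ≤ K((𝐪))` the good and the bad level, `s ∈ EM` a parameter with the level-`M'`
package of `CompGauss16` / `FibreSurj17` (`hs, htrs, hn', hdegM, hirrM, hsm`), `φ : EM →ₐ[K] E` a degeneracy map,
`B ⊂ E` a chart of the bad level containing `φ (chart O s)`.

* `isIntegrallyClosed_chart`, `isIntegralElem_chart` : generic facts on `ChartGeneric22.chart`;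
* `chart_generators`, `chart_generators_inv` : `fin0`-shaped generators of `chart O t`, `chart O t⁻¹`;
* **`projective_gauss`** : `ChartProj.projective_of_chart_data` with all hypotheses on `A := chart O s` discharged:
  if `B` is a finite `chart O s`-module (through `φ`), `B ⊂ O1 ⊓ O2`, `π` uniformises `O1, O2`, `B` is
  `π`-saturated in `O1 ⊓ O2` and `φ⁻¹(π O_j) ∩ chart O s = π (chart O s)` for `j = 1, 2`, then `B` is a
  projective `chart O s`-module.
-/
import Mathlib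
import Fermat.Agent.ES.RED.FibreSurj17
import Fermat.Agent.ES.N35.CompData16
import Fermat.Agent.ES.N34.CompGauss16
import Fermat.Agent.T1B.NormModel99.ChartProj

set_option autoImplicit false
set_option linter.unusedSectionVars false
set_option linter.style.haveILetI false
set_option synthInstance.maxHeartbeats 400000
set_option maxHeartbeats 1000000

noncomputable section

open HahnSeries Polynomial IntermediateField

namespace Fermat.Agent.T1B.NormModel99

open Fermat.Agent.RED.PUR.GaussGen8 Fermat.Agent.RED.PUR.KtGauss8 Fermat.Agent.RED.PUR.G1Package8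
  Fermat.Agent.RED.PUR.ChartGeneric22 Fermat.Agent.RED.ModelAsm4
  Fermat.Agent.ES.RED.FibreSurj17 Fermat.Agent.ES.N35.CompData16

section Generic

variable {R F : Type*} [CommRing R] [Field F] [Algebra R F]

/-- A chart whose fraction field is `F` is integrally closed. -/
theorem isIntegrallyClosed_chart (t : F)
    (hfrac : ∀ x : F, ∃ a ∈ chart R t, ∃ b ∈ chart R t, b ≠ 0 ∧ x * b = a) :
    IsIntegrallyClosed ↥(chart R t) := by
  have hfr : IsFractionRing ↥(chart R t) F := by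
    apply IsFractionRing.of_field
    intro z
    obtain ⟨a, ha, b, hb, hb0, h⟩ := hfrac z
    refine ⟨⟨a, ha⟩, ⟨b, hb⟩, ?_⟩
    show z = a / b
    rw [eq_div_iff hb0]
    exact h
  rw [isIntegrallyClosed_iff F]
  intro x hx
  exact ⟨⟨x, chart_intcl t x hx⟩, rfl⟩

/-- The chart is integral over `R[X]` (`X ↦ s`), polynomial form. -/
theorem isIntegralElem_chart (s : F) (a : ↥(chart R s)) :
    (aeval (R := R) (⟨s, self_mem_chart s⟩ : ↥(chart R s))).toRingHom.IsIntegralElem a := by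
  obtain ⟨Q, hQm, hQ⟩ := isIntegralElem_aeval_of_isIntegral_adjoin (mem_chart_iff.mp a.2)
  refine ⟨Q, hQm, Subtype.ext ?_⟩
  show (chart R s).val (eval₂ _ a Q) = 0
  have h1 := hom_eval₂ Q (aeval (R := R) (⟨s, self_mem_chart s⟩ : ↥(chart R s))).toRingHom
    ((chart R s).val : ↥(chart R s) →+* F) a
  refine h1.trans ?_
  rw [← hQ]
  congr 1
  apply Polynomial.ringHom_ext
  · intro r
    show ((aeval (⟨s, self_mem_chart s⟩ : ↥(chart R s)) (C r) : ↥(chart R s)) : F) = aeval s (C r)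
    rw [aeval_C, aeval_C]
    rfl
  · show ((aeval (⟨s, self_mem_chart s⟩ : ↥(chart R s)) X : ↥(chart R s)) : F) = aeval s X
    rw [aeval_X, aeval_X]

end Generic

section Gauss

variable {K : Type*} [Field K] [CharZero K] {O : ValuationSubring K} [IsDiscreteValuationRing ↥O]
  {π : ↥O} {EM E : IntermediateField K (LaurentSeries K)}

/-- In a DVR with uniformiser `π`, every nonzero prime contains `π`. -/
theorem mem_of_isPrime_ne_bot (hπ : Irreducible π) (p : Ideal ↥O) (hp : p.IsPrime) (hp0 : p ≠ ⊥) :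
    π ∈ p := by
  have hmax : p.IsMaximal := hp.isMaximal hp0
  have h1 : p = IsLocalRing.maximalIdeal ↥O := IsLocalRing.eq_maximalIdeal hmax
  rw [h1, hπ.maximalIdeal_eq]
  exact Ideal.mem_span_singleton_self π

/-- `fin0`-shaped generators of `chart O t` over `O[t]`. -/
theorem chart_generators (hπ : Irreducible π) (t : ↥E)
    (ht : (t : LaurentSeries K) ∈ gaussRing O)
    (htr : Transcendental (Res O) (gaussRed O ⟨(t : LaurentSeries K), ht⟩))
    (hn : relfinrank (Kt O ⟨(t : LaurentSeries K), ht⟩) E ≠ 0) :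
    ∃ (r : ℕ) (e : Fin r → ↥E), (∀ i, e i ∈ chart ↥O t) ∧
      ∀ x ∈ chart ↥O t, ∃ P : Fin r → (↥O)[X], x = ∑ i, aeval t (P i) * e i := by
  have : IsScalarTower ↥O K ↥E := Fermat.Agent.RED.NumInst4.isScalarTower_OE O E
  have : FiniteDimensional ↥(IntermediateField.adjoin K {t}) ↥E := finiteDimensional_adjoin t hn
  have htrK : Transcendental K t :=
    transcendental_of_coe t (transcendental_t (tG := ⟨(t : LaurentSeries K), ht⟩) hπ htr)
  exact (chart_facts (R := ↥O) (IntermediateField.adjoin K {t})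
    (IntermediateField.mem_adjoin_simple_self K t) le_rfl htrK).2.2

/-- `fin0`-shaped generators of `chart O t⁻¹` over `O[t⁻¹]`. -/
theorem chart_generators_inv (hπ : Irreducible π) (t : ↥E)
    (ht : (t : LaurentSeries K) ∈ gaussRing O)
    (htr : Transcendental (Res O) (gaussRed O ⟨(t : LaurentSeries K), ht⟩))
    (hn : relfinrank (Kt O ⟨(t : LaurentSeries K), ht⟩) E ≠ 0) :
    ∃ (r : ℕ) (e : Fin r → ↥E), (∀ i, e i ∈ chart ↥O t⁻¹) ∧
      ∀ x ∈ chart ↥O t⁻¹, ∃ P : Fin r → (↥O)[X], x = ∑ i, aeval t⁻¹ (P i) * e i := by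
  have : IsScalarTower ↥O K ↥E := Fermat.Agent.RED.NumInst4.isScalarTower_OE O E
  have : FiniteDimensional ↥(IntermediateField.adjoin K {t}) ↥E := finiteDimensional_adjoin t hn
  have htrK : Transcendental K t :=
    transcendental_of_coe t (transcendental_t (tG := ⟨(t : LaurentSeries K), ht⟩) hπ htr)
  have hmem : t ∈ IntermediateField.adjoin K {t} := IntermediateField.mem_adjoin_simple_self K t
  have hE' : IntermediateField.adjoin K {t} ≤ IntermediateField.adjoin K {t⁻¹} := by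
    rw [IntermediateField.adjoin_le_iff, Set.singleton_subset_iff]
    have h1 : t⁻¹ ∈ IntermediateField.adjoin K {t⁻¹} :=
      IntermediateField.mem_adjoin_simple_self K t⁻¹
    have h2 := inv_mem h1
    rwa [inv_inv] at h2
  have htr' : Transcendental K t⁻¹ := fun h => htrK (IsAlgebraic.inv_iff.1 h)
  exact (chart_facts (R := ↥O) (IntermediateField.adjoin K {t}) (inv_mem hmem) hE' htr').2.2

/-- **`B` is a projective `chart O s`-module** (Gauss level). -/
theorem projective_gauss (hπ : Irreducible π) (hEM : EM ≤ fracField O)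
    (s : ↥EM) (hs : (s : LaurentSeries K) ∈ gaussRing O)
    (htrs : Transcendental (Res O) (gaussRed O ⟨(s : LaurentSeries K), hs⟩))
    {n' : ℕ} (hn' : relfinrank (Kt O ⟨(s : LaurentSeries K), hs⟩) EM ≠ 0)
    (hdegM : DegLe O EM ⟨(s : LaurentSeries K), hs⟩ n')
    (hirrM : Irr O EM ⟨(s : LaurentSeries K), hs⟩ n')
    (hsm : SmoothChart O EM π s)
    (φ : ↥EM →ₐ[K] ↥E) (B : Subalgebra ↥O ↥E)
    (hφB : ∀ b : ↥(chart ↥O s), chartAlg O φ s b ∈ B)
    (hfinite : ChartFinite (chartAlg O φ s) B hφB)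
    (O1 O2 : ValuationSubring ↥E)
    (hB1 : ∀ x ∈ B, x ∈ O1) (hB2 : ∀ x ∈ B, x ∈ O2)
    (unif1 : ∀ x ∈ O1, x⁻¹ ∉ O1 → ∃ c ∈ O1, x = algebraMap ↥O ↥E π * c)
    (unif2 : ∀ x ∈ O2, x⁻¹ ∉ O2 → ∃ c ∈ O2, x = algebraMap ↥O ↥E π * c)
    (sat : ∀ b ∈ B, ∀ c : ↥E, c ∈ O1 → c ∈ O2 → b = algebraMap ↥O ↥E π * c → c ∈ B)
    (hker1 : ∀ a : ↥(chart ↥O s), (∃ c ∈ O1, chartAlg O φ s a = algebraMap ↥O ↥E π * c) →
      a ∈ Ideal.span {algebraMap ↥O ↥(chart ↥O s) π})
    (hker2 : ∀ a : ↥(chart ↥O s), (∃ c ∈ O2, chartAlg O φ s a = algebraMap ↥O ↥E π * c) →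
      a ∈ Ideal.span {algebraMap ↥O ↥(chart ↥O s) π}) :
    ChartProjective (chartAlg O φ s) B hφB := by
  have : IsScalarTower ↥O K ↥EM := Fermat.Agent.RED.NumInst4.isScalarTower_OE O EM
  have : FiniteDimensional ↥(IntermediateField.adjoin K {s}) ↥EM := finiteDimensional_adjoin s hn'
  have htrK : Transcendental K s :=
    transcendental_of_coe s (transcendental_t (tG := ⟨(s : LaurentSeries K), hs⟩) hπ htrs)
  have hnoeth : IsNoetherianRing ↥(chart ↥O s) := isNoetherianRing_chart' hπ s hs htrs hn'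
  have hic : IsIntegrallyClosed ↥(chart ↥O s) :=
    isIntegrallyClosed_chart s (chart_facts (R := ↥O) (IntermediateField.adjoin K {s})
      (IntermediateField.mem_adjoin_simple_self K s) le_rfl htrK).2.1
  have hded := isDedekindDomain_quotient hπ hEM s hs htrs hn' hdegM hirrM hsm
  have hπA : algebraMap ↥O ↥(chart ↥O s) π ≠ 0 := by
    intro h0
    have h1 : ((algebraMap ↥O ↥(chart ↥O s) π : ↥(chart ↥O s)) : ↥EM) = 0 := by rw [h0]; rfl
    have h2 : algebraMap ↥O ↥EM π = 0 := h1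
    rw [IsScalarTower.algebraMap_apply ↥O K ↥EM, map_eq_zero_iff _ (algebraMap K ↥EM).injective]
      at h2
    exact hπ.ne_zero (Subtype.ext h2)
  have hφinj : Function.Injective (chartAlg O φ s) := by
    intro x y hxy
    rw [chartAlg_apply, chartAlg_apply] at hxy
    exact Subtype.ext (φ.injective hxy)
  exact projective_of_chart_data (mem_of_isPrime_ne_bot hπ) ⟨s, self_mem_chart s⟩
    (isIntegralElem_chart s) hπA (chartAlg O φ s) hφinj B hφB hfinite O1 O2 hB1 hB2 unif1 unif2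
    sat hker1 hker2

/-- The kernel condition `φ⁻¹(π O_j) ∩ chart O s = π (chart O s)` from `φ⁻¹(O_j) ⊆ Ov_{M'}` and the saturation of
the smooth chart (`CompGauss16.levelM_sat`). -/
theorem hker_gauss (hπ : Irreducible π) (hEM : EM ≤ fracField O)
    (s : ↥EM) (hs : (s : LaurentSeries K) ∈ gaussRing O)
    (htrs : Transcendental (Res O) (gaussRed O ⟨(s : LaurentSeries K), hs⟩))
    {n' : ℕ} (hdegM : DegLe O EM ⟨(s : LaurentSeries K), hs⟩ n')
    (hirrM : Irr O EM ⟨(s : LaurentSeries K), hs⟩ n')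
    (φ : ↥EM →ₐ[K] ↥E) (Oj : ValuationSubring ↥E)
    (hcomap : ∀ z : ↥EM, φ z ∈ Oj → z ∈ OvE O hπ EM hEM) :
    ∀ a : ↥(chart ↥O s), (∃ c ∈ Oj, chartAlg O φ s a = algebraMap ↥O ↥E π * c) →
      a ∈ Ideal.span {algebraMap ↥O ↥(chart ↥O s) π} := by
  have : IsScalarTower ↥O K ↥E := Fermat.Agent.RED.NumInst4.isScalarTower_OE O E
  have : IsScalarTower ↥O K ↥EM := Fermat.Agent.RED.NumInst4.isScalarTower_OE O EM
  exact Fermat.Agent.ES.N34.CompHyp16.hker_of_sat π
    (Fermat.Agent.ES.N34.CompGauss16.restrictO (O := O) φ) (chart ↥O s) (OvE O hπ EM hEM) Oj hcomap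
    (Fermat.Agent.ES.N34.CompGauss16.levelM_sat hπ hEM s hs htrs hdegM hirrM)

/-- `φ` maps `chart O s` into `chart O u` as soon as `φ s ∈ chart O u`. -/
theorem hφB_gauss (s : ↥EM) (φ : ↥EM →ₐ[K] ↥E) (u : ↥E) (hφs : φ s ∈ chart ↥O u) :
    ∀ b : ↥(chart ↥O s), chartAlg O φ s b ∈ chart ↥O u := by
  have : IsScalarTower ↥O K ↥E := Fermat.Agent.RED.NumInst4.isScalarTower_OE O E
  exact Fermat.Agent.ES.N34.CompHyp16.hφB_of_chart
    (Fermat.Agent.ES.N34.CompGauss16.restrictO (O := O) φ) (chart ↥O s) (chart ↥O u) s u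
    (fun _ hb => hb) (fun _ hy => hy) hφs

/-- `chart O u` is a finite `chart O s`-module through `φ` as soon as `u` is integral over `O[φ s]`. -/
theorem finite_gauss (s : ↥EM) (φ : ↥EM →ₐ[K] ↥E) (u : ↥E)
    (hφB : ∀ b : ↥(chart ↥O s), chartAlg O φ s b ∈ chart ↥O u)
    (hint : IsIntegral (Algebra.adjoin ↥O {φ s}) u)
    (hgen : ∃ (r : ℕ) (e : Fin r → ↥E), (∀ i, e i ∈ chart ↥O u) ∧
      ∀ x ∈ chart ↥O u, ∃ P : Fin r → (↥O)[X], x = ∑ i, aeval u (P i) * e i) :
    ChartFinite (chartAlg O φ s) (chart ↥O u) hφB :=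
  finite_of_integral_generator (chartAlg O φ s) (chart ↥O u) hφB u (self_mem_chart u)
    (isIntegral_chartAlgebra (chartAlg O φ s) (chart ↥O u) hφB ⟨s, self_mem_chart s⟩
      (self_mem_chart u) hint) hgen

/-- **Finite and projective**, all in one: the level-`M'` package for `s`, the chart `chart O u` of the bad
level (`u = t` or `t⁻¹`) with its generators, `u` integral over `O[φ s]`, the two valuation
rings with `φ⁻¹(O_j) ⊆ Ov_{M'}`, saturation. -/
theorem finite_projective_gauss (hπ : Irreducible π) (hEM : EM ≤ fracField O)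
    (s : ↥EM) (hs : (s : LaurentSeries K) ∈ gaussRing O)
    (htrs : Transcendental (Res O) (gaussRed O ⟨(s : LaurentSeries K), hs⟩))
    {n' : ℕ} (hn' : relfinrank (Kt O ⟨(s : LaurentSeries K), hs⟩) EM ≠ 0)
    (hdegM : DegLe O EM ⟨(s : LaurentSeries K), hs⟩ n')
    (hirrM : Irr O EM ⟨(s : LaurentSeries K), hs⟩ n')
    (hsm : SmoothChart O EM π s)
    (φ : ↥EM →ₐ[K] ↥E) (u : ↥E)
    (hgen : ∃ (r : ℕ) (e : Fin r → ↥E), (∀ i, e i ∈ chart ↥O u) ∧
      ∀ x ∈ chart ↥O u, ∃ P : Fin r → (↥O)[X], x = ∑ i, aeval u (P i) * e i)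
    (hint : IsIntegral (Algebra.adjoin ↥O {φ s}) u)
    (O1 O2 : ValuationSubring ↥E)
    (hB1 : ∀ x ∈ chart ↥O u, x ∈ O1) (hB2 : ∀ x ∈ chart ↥O u, x ∈ O2)
    (unif1 : ∀ x ∈ O1, x⁻¹ ∉ O1 → ∃ c ∈ O1, x = algebraMap ↥O ↥E π * c)
    (unif2 : ∀ x ∈ O2, x⁻¹ ∉ O2 → ∃ c ∈ O2, x = algebraMap ↥O ↥E π * c)
    (sat : ∀ b ∈ chart ↥O u, ∀ c : ↥E, c ∈ O1 → c ∈ O2 → b = algebraMap ↥O ↥E π * c →
      c ∈ chart ↥O u)
    (hcomap1 : ∀ z : ↥EM, φ z ∈ O1 → z ∈ OvE O hπ EM hEM)
    (hcomap2 : ∀ z : ↥EM, φ z ∈ O2 → z ∈ OvE O hπ EM hEM)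
    (hφB : ∀ b : ↥(chart ↥O s), chartAlg O φ s b ∈ chart ↥O u) :
    ChartFinite (chartAlg O φ s) (chart ↥O u) hφB ∧
      ChartProjective (chartAlg O φ s) (chart ↥O u) hφB := by
  have hfin := finite_gauss s φ u hφB hint hgen
  exact ⟨hfin, projective_gauss hπ hEM s hs htrs hn' hdegM hirrM hsm φ (chart ↥O u) hφB hfin O1 O2
    hB1 hB2 unif1 unif2 sat
    (hker_gauss hπ hEM s hs htrs hdegM hirrM φ O1 hcomap1)
    (hker_gauss hπ hEM s hs htrs hdegM hirrM φ O2 hcomap2)⟩

end Gauss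

end Fermat.Agent.T1B.NormModel99
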